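/-
Project SS (S34), cell [L] LOCAL FACTORISATION (helper10): definitions (prefix `ssl_`).

`R` a domain with fraction field `F` (in the application `R = B_𝔫`, the local ring of a chart `B` of
the two-component model at a closed point `𝔫 ∋ π` of the special fibre), `π ∈ R`.

* `ssl_UnitAt 𝔮 z`   : `z ∈ F` is a unit of the localisation `R_𝔮`;
* `ssl_Horiz π 𝔮`    : `𝔮` is a prime of height one of `R` not containing `π` (a "horizontal" prime
                       divisor through the point);
* `ssl_LocEq π 𝔮 t`  : `t ∈ R` is a LOCAL EQUATION of the horizontal prime `𝔮` MODULO VERTICAL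
                       DIVISORS: `t` generates `𝔮 R_𝔮` and lies in no other horizontal prime
                       (nothing is asked at the primes containing `π`).

The abstract core (`SS/Local/Core.lean`) needs, for the function `g`, an `e₀ ∈ Fˣ` with
`g / e₀ᵐ ∈ (R_𝔮)ˣ` at every horizontal `𝔮` (`ssl_PowModVert`); it follows from the existence of
local equations at the horizontal primes where `g` is not a unit (`SS/Local/Equations.lean`), which
exist at a smooth point (`R` factorial, `SS/Local/Smooth.lean`) and at a node `u v = a ∈ A0`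
through which the prime is an `A0`-rational section (`SS/Local/NodePE.lean`).
-/
import Mathlib

set_option autoImplicit false

namespace Fermat.Agent.SS

section Defs

variable {R : Type*} [CommRing R] (F : Type*) [Field F] [Algebra R F]

/-- `z` is a unit of the localisation of `R` at `𝔮` (inside the fraction field `F`). -/
def ssl_UnitAt (𝔮 : Ideal R) (z : F) : Prop :=
  ∃ a s : R, a ∉ 𝔮 ∧ s ∉ 𝔮 ∧ z * algebraMap R F s = algebraMap R F a

/-- `z` lies in the localisation of `R` at `𝔮`. -/
def ssl_MemAt (𝔮 : Ideal R) (z : F) : Prop :=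
  ∃ a s : R, s ∉ 𝔮 ∧ z * algebraMap R F s = algebraMap R F a

variable {F}

/-- a horizontal prime divisor: a prime of height one not containing `π`. -/
def ssl_Horiz (π : R) (𝔮 : Ideal R) : Prop :=
  𝔮.IsPrime ∧ 𝔮.height = 1 ∧ π ∉ 𝔮

/-- `t` is a local equation of the horizontal prime `𝔮` modulo vertical divisors. -/
def ssl_LocEq (π : R) (𝔮 : Ideal R) (t : R) : Prop :=
  t ∈ 𝔮 ∧ (∀ z ∈ 𝔮, ∃ s : R, s ∉ 𝔮 ∧ t ∣ s * z) ∧
    ∀ 𝔮' : Ideal R, ssl_Horiz π 𝔮' → t ∈ 𝔮' → 𝔮' = 𝔮

variable (F)

/-- `g` is an `m`-th power modulo vertical divisors: `g / e₀ᵐ` is a unit at every horizontal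
prime. -/
def ssl_PowModVert (π : R) (m : ℕ) (g : F) : Prop :=
  ∃ e₀ : F, e₀ ≠ 0 ∧ ∀ 𝔮 : Ideal R, ssl_Horiz π 𝔮 → ssl_UnitAt F 𝔮 (g / e₀ ^ m)

end Defs

end Fermat.Agent.SS
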