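/-
Project SS (S34), cell [L] (helper10): THE PRIMES OF HEIGHT ONE OF A NOETHERIAN NORMAL DOMAIN
(prefix `ssl_`).

`R` a domain with fraction field `F`.
* calculus of `ssl_UnitAt 𝔮` / `ssl_MemAt 𝔮` (units / elements of `R_𝔮` inside `F`);
* `ssl_krull`, `ssl_krull_unit` : `R = ⋂ R_𝔮`, `Rˣ = ⋂ (R_𝔮)ˣ` over the primes of height one
  (`R` noetherian and integrally closed; from `sskr_dvd`);
* `ssl_valAt 𝔮 h1` : for `𝔮` of height one, `R_𝔮` as a `ValuationSubring F`; it is a discrete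
  valuation ring (`ssl_valAt_isPrincipalIdealRing`, `ssl_valAt_ne_top`), with the dictionary
  `ssl_mem_valAt`, `ssl_mem_valAt_unitGroup`, `ssl_mem_valAt_nonunits`;
* `ssl_eq_of_le` : two primes of height one `𝔮 ≤ 𝔮'` are equal;
* `ssl_finite_support` : a nonzero `g ∈ F` is a unit at all but finitely many primes of height one.
-/
import Mathlib
import Fermat.Agent.SS.Krull
import Fermat.Agent.SS.Local.Defs

set_option autoImplicit false
set_option linter.unusedSectionVars false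
set_option linter.style.haveILetI false

namespace Fermat.Agent.SS

open IsLocalRing

section Calculus

variable {R : Type*} [CommRing R] [IsDomain R] {F : Type*} [Field F] [Algebra R F]
  [IsFractionRing R F]

theorem ssl_algebraMap_ne_zero {r : R} (hr : r ≠ 0) : algebraMap R F r ≠ 0 :=
  (map_ne_zero_iff _ (IsFractionRing.injective R F)).2 hr

variable (𝔮 : Ideal R) [h𝔮 : 𝔮.IsPrime]

omit [IsDomain R] [IsFractionRing R F] h𝔮 in
theorem ssl_memAt_of_unitAt {z : F} (h : ssl_UnitAt F 𝔮 z) : ssl_MemAt F 𝔮 z := by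
  obtain ⟨a, s, -, hs, h⟩ := h
  exact ⟨a, s, hs, h⟩

theorem ssl_unitAt_ne_zero {z : F} (h : ssl_UnitAt F 𝔮 z) : z ≠ 0 := by
  obtain ⟨a, s, ha, -, h⟩ := h
  rintro rfl
  rw [zero_mul] at h
  have : a = 0 := by
    apply IsFractionRing.injective R F
    rw [← h, map_zero]
  exact ha (this ▸ 𝔮.zero_mem)

omit [IsDomain R] [IsFractionRing R F] in
theorem ssl_unitAt_one : ssl_UnitAt F 𝔮 (1 : F) :=
  ⟨1, 1, fun h => h𝔮.ne_top ((Ideal.eq_top_iff_one _).2 h),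
    fun h => h𝔮.ne_top ((Ideal.eq_top_iff_one _).2 h), by rw [map_one, mul_one]⟩

omit [IsDomain R] [IsFractionRing R F] in
theorem ssl_unitAt_algebraMap {r : R} (hr : r ∉ 𝔮) : ssl_UnitAt F 𝔮 (algebraMap R F r) :=
  ⟨r, 1, hr, fun h => h𝔮.ne_top ((Ideal.eq_top_iff_one _).2 h), by rw [map_one, mul_one]⟩

omit [IsDomain R] [IsFractionRing R F] in
theorem ssl_unitAt_mul {z w : F} (hz : ssl_UnitAt F 𝔮 z) (hw : ssl_UnitAt F 𝔮 w) :
    ssl_UnitAt F 𝔮 (z * w) := by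
  obtain ⟨a, s, ha, hs, h⟩ := hz
  obtain ⟨a', s', ha', hs', h'⟩ := hw
  refine ⟨a * a', s * s', fun hm => (h𝔮.mem_or_mem hm).elim ha ha',
    fun hm => (h𝔮.mem_or_mem hm).elim hs hs', ?_⟩
  rw [map_mul, map_mul, ← h, ← h']
  ring

theorem ssl_unitAt_inv {z : F} (hz : ssl_UnitAt F 𝔮 z) : ssl_UnitAt F 𝔮 z⁻¹ := by
  have hz0 := ssl_unitAt_ne_zero 𝔮 hz
  obtain ⟨a, s, ha, hs, h⟩ := hz
  refine ⟨s, a, hs, ha, ?_⟩
  rw [← h]
  field_simp

theorem ssl_unitAt_div {z w : F} (hz : ssl_UnitAt F 𝔮 z) (hw : ssl_UnitAt F 𝔮 w) :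
    ssl_UnitAt F 𝔮 (z / w) := by
  rw [div_eq_mul_inv]
  exact ssl_unitAt_mul 𝔮 hz (ssl_unitAt_inv 𝔮 hw)

omit [IsDomain R] [IsFractionRing R F] in
theorem ssl_unitAt_pow {z : F} (hz : ssl_UnitAt F 𝔮 z) (n : ℕ) : ssl_UnitAt F 𝔮 (z ^ n) := by
  induction n with
  | zero => rw [pow_zero]; exact ssl_unitAt_one 𝔮
  | succ n ih => rw [pow_succ]; exact ssl_unitAt_mul 𝔮 ih hz

theorem ssl_unitAt_zpow {z : F} (hz : ssl_UnitAt F 𝔮 z) (n : ℤ) : ssl_UnitAt F 𝔮 (z ^ n) := by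
  cases n with
  | ofNat n => rw [Int.ofNat_eq_natCast, zpow_natCast]; exact ssl_unitAt_pow 𝔮 hz n
  | negSucc n => rw [zpow_negSucc]; exact ssl_unitAt_inv 𝔮 (ssl_unitAt_pow 𝔮 hz _)

omit [IsDomain R] [IsFractionRing R F] in
theorem ssl_unitAt_prod {ι : Type*} (s : Finset ι) (f : ι → F)
    (h : ∀ i ∈ s, ssl_UnitAt F 𝔮 (f i)) : ssl_UnitAt F 𝔮 (∏ i ∈ s, f i) := by
  classical
  induction s using Finset.induction_on with
  | empty => rw [Finset.prod_empty]; exact ssl_unitAt_one 𝔮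
  | insert i s hi ih =>
    rw [Finset.prod_insert hi]
    exact ssl_unitAt_mul 𝔮 (h i (Finset.mem_insert_self i s))
      (ih fun j hj => h j (Finset.mem_insert_of_mem hj))

/-- a nonzero `z` is a unit at `𝔮` iff `z` and `z⁻¹` lie in `R_𝔮`. -/
theorem ssl_unitAt_iff {z : F} (hz : z ≠ 0) :
    ssl_UnitAt F 𝔮 z ↔ ssl_MemAt F 𝔮 z ∧ ssl_MemAt F 𝔮 z⁻¹ := by
  constructor
  · intro h
    exact ⟨ssl_memAt_of_unitAt 𝔮 h, ssl_memAt_of_unitAt 𝔮 (ssl_unitAt_inv 𝔮 h)⟩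
  · rintro ⟨⟨a, s, hs, h⟩, ⟨a', s', hs', h'⟩⟩
    refine ⟨a, s, ?_, hs, h⟩
    intro ha
    have h1 : a * a' = s * s' := by
      apply IsFractionRing.injective R F
      rw [map_mul, map_mul, ← h, ← h']
      field_simp
    have : s * s' ∈ 𝔮 := h1 ▸ 𝔮.mul_mem_right _ ha
    exact (h𝔮.mem_or_mem this).elim hs hs'

omit [IsDomain R] [IsFractionRing R F] in
theorem ssl_memAt_algebraMap (r : R) : ssl_MemAt F 𝔮 (algebraMap R F r) :=
  ⟨r, 1, fun h => h𝔮.ne_top ((Ideal.eq_top_iff_one _).2 h), by rw [map_one, mul_one]⟩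

omit [IsDomain R] [IsFractionRing R F] in
theorem ssl_memAt_mul {z w : F} (hz : ssl_MemAt F 𝔮 z) (hw : ssl_MemAt F 𝔮 w) :
    ssl_MemAt F 𝔮 (z * w) := by
  obtain ⟨a, s, hs, h⟩ := hz
  obtain ⟨a', s', hs', h'⟩ := hw
  refine ⟨a * a', s * s', fun hm => (h𝔮.mem_or_mem hm).elim hs hs', ?_⟩
  rw [map_mul, map_mul, ← h, ← h']
  ring

omit [IsDomain R] [IsFractionRing R F] in
theorem ssl_memAt_add {z w : F} (hz : ssl_MemAt F 𝔮 z) (hw : ssl_MemAt F 𝔮 w) :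
    ssl_MemAt F 𝔮 (z + w) := by
  obtain ⟨a, s, hs, h⟩ := hz
  obtain ⟨a', s', hs', h'⟩ := hw
  refine ⟨a * s' + a' * s, s * s', fun hm => (h𝔮.mem_or_mem hm).elim hs hs', ?_⟩
  rw [map_add, map_mul, map_mul, map_mul, ← h, ← h']
  ring

end Calculus

section Krull

variable {R : Type*} [CommRing R] [IsDomain R] [IsNoetherianRing R] [IsIntegrallyClosed R]
  {F : Type*} [Field F] [Algebra R F] [IsFractionRing R F]

/-- **Krull**: `R = ⋂ R_𝔮` over the primes of height one. -/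
theorem ssl_krull {z : F}
    (h : ∀ 𝔮 : Ideal R, 𝔮.IsPrime → 𝔮.height = 1 → ssl_MemAt F 𝔮 z) :
    ∃ r : R, algebraMap R F r = z := by
  obtain ⟨a, b, hb, rfl⟩ := IsFractionRing.div_surjective (A := R) z
  have hb0 : b ≠ 0 := nonZeroDivisors.ne_zero hb
  have hbF : algebraMap R F b ≠ 0 := ssl_algebraMap_ne_zero hb0
  have hdvd : b ∣ a := by
    refine sskr_dvd hb0 fun 𝔭 h𝔭 h1 => ?_
    obtain ⟨a', s, hs, hz⟩ := h 𝔭 h𝔭 h1
    refine ⟨s, hs, a', ?_⟩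
    apply IsFractionRing.injective R F
    rw [map_mul, map_mul, ← hz]
    field_simp
  obtain ⟨c, rfl⟩ := hdvd
  refine ⟨c, ?_⟩
  rw [map_mul]
  field_simp

/-- **Krull for units**: `Rˣ = ⋂ (R_𝔮)ˣ` over the primes of height one. -/
theorem ssl_krull_unit {z : F} (hz : z ≠ 0)
    (h : ∀ 𝔮 : Ideal R, 𝔮.IsPrime → 𝔮.height = 1 → ssl_UnitAt F 𝔮 z) :
    ∃ ω : Rˣ, algebraMap R F (ω : R) = z := by
  obtain ⟨r, hr⟩ := ssl_krull (F := F) fun 𝔮 h𝔮 h1 => ssl_memAt_of_unitAt 𝔮 (h 𝔮 h𝔮 h1)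
  obtain ⟨r', hr'⟩ := ssl_krull (F := F) (z := z⁻¹) fun 𝔮 h𝔮 h1 =>
    haveI := h𝔮
    ssl_memAt_of_unitAt 𝔮 (ssl_unitAt_inv 𝔮 (h 𝔮 h𝔮 h1))
  have h1 : r * r' = 1 := by
    apply IsFractionRing.injective R F
    rw [map_mul, hr, hr', map_one, mul_inv_cancel₀ hz]
  exact ⟨⟨r, r', h1, by rw [mul_comm]; exact h1⟩, hr⟩

end Krull

section ValAt

variable {R : Type*} [CommRing R] [IsDomain R] [IsNoetherianRing R] [IsIntegrallyClosed R]
  {F : Type*} [Field F] [Algebra R F] [IsFractionRing R F]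

omit [IsDomain R] [IsNoetherianRing R] [IsIntegrallyClosed R] in
/-- two primes of height one `𝔮 ≤ 𝔮'` are equal. -/
theorem ssl_eq_of_le {𝔮 𝔮' : Ideal R} [𝔮.IsPrime] (h1 : 𝔮.height = 1) (h1' : 𝔮'.height = 1)
    (hle : 𝔮 ≤ 𝔮') : 𝔮 = 𝔮' := by
  haveI : 𝔮.FiniteHeight :=
    (Ideal.finiteHeight_iff 𝔮).2 (Or.inr (by rw [h1]; exact ENat.one_ne_top))
  exact Ideal.eq_of_le_of_height_le 𝔮 hle (by rw [h1, h1'])

omit [IsNoetherianRing R] [IsIntegrallyClosed R] in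
/-- a nonzero prime inside a prime of height one is equal to it. -/
theorem ssl_eq_of_le_of_ne_bot {p 𝔮 : Ideal R} [p.IsPrime] (hp0 : p ≠ ⊥) (h1 : 𝔮.height = 1)
    (hle : p ≤ 𝔮) : p = 𝔮 := by
  have hp1 : p.height = 1 := by
    apply le_antisymm
    · rw [← h1]; exact Ideal.height_mono hle
    · rw [Order.one_le_iff_pos, pos_iff_ne_zero, Ne, Ideal.height_eq_zero_iff_eq_bot]
      exact hp0
  exact ssl_eq_of_le hp1 h1 hle

variable (F) in
/-- the localisation `R_𝔮 ⊆ F`. -/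
noncomputable def ssl_locSub (𝔮 : Ideal R) [𝔮.IsPrime] : Subalgebra R F :=
  Localization.subalgebra.ofField F 𝔮.primeCompl 𝔮.primeCompl_le_nonZeroDivisors

instance ssl_locSub_isLocalization (𝔮 : Ideal R) [𝔮.IsPrime] :
    IsLocalization.AtPrime (ssl_locSub F 𝔮) 𝔮 :=
  Localization.subalgebra.isLocalization_ofField F 𝔮.primeCompl 𝔮.primeCompl_le_nonZeroDivisors

omit [IsNoetherianRing R] [IsIntegrallyClosed R] in
theorem ssl_mem_locSub (𝔮 : Ideal R) [𝔮.IsPrime] (z : F) :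
    z ∈ ssl_locSub F 𝔮 ↔ ssl_MemAt F 𝔮 z := by
  constructor
  · rintro ⟨a, s, hs, rfl⟩
    refine ⟨a, s, hs, ?_⟩
    have hs0 : algebraMap R F s ≠ 0 := ssl_algebraMap_ne_zero fun h0 => hs (h0 ▸ 𝔮.zero_mem)
    rw [mul_assoc, inv_mul_cancel₀ hs0, mul_one]
  · rintro ⟨a, s, hs, h⟩
    refine ⟨a, s, hs, ?_⟩
    have hs0 : algebraMap R F s ≠ 0 := ssl_algebraMap_ne_zero fun h0 => hs (h0 ▸ 𝔮.zero_mem)
    rw [← h, mul_assoc, mul_inv_cancel₀ hs0, mul_one]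

/-- **`R_𝔮` is a discrete valuation ring** for `𝔮` of height one. -/
theorem ssl_locSub_isDVR (𝔮 : Ideal R) [h𝔮 : 𝔮.IsPrime] (h1 : 𝔮.height = 1) :
    IsDiscreteValuationRing (ssl_locSub F 𝔮) := by
  set S := ssl_locSub F 𝔮 with hS
  haveI hloc : IsLocalRing S := IsLocalization.AtPrime.isLocalRing S 𝔮
  haveI hnoeth : IsNoetherianRing S :=
    IsLocalization.isNoetherianRing 𝔮.primeCompl S inferInstance
  haveI hic : IsIntegrallyClosed S :=
    isIntegrallyClosed_of_isLocalization S 𝔮.primeCompl 𝔮.primeCompl_le_nonZeroDivisors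
  have h𝔮0 : 𝔮 ≠ ⊥ := by
    rintro rfl
    rw [Ideal.height_bot] at h1
    exact zero_ne_one h1
  have hmax : maximalIdeal S = 𝔮.map (algebraMap R S) :=
    (IsLocalization.AtPrime.map_eq_maximalIdeal 𝔮 S).symm
  have hprime : ∀ P : Ideal S, P ≠ ⊥ → P.IsPrime → P = maximalIdeal S := by
    intro P hP0 hP
    set p : Ideal R := P.comap (algebraMap R S) with hp
    haveI hpp : p.IsPrime := Ideal.comap_isPrime _ P
    have hPmap : p.map (algebraMap R S) = P := IsLocalization.map_under 𝔮.primeCompl S P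
    have hp0 : p ≠ ⊥ := by
      intro h0
      apply hP0
      rw [← hPmap, h0, Ideal.map_bot]
    have hple : p ≤ 𝔮 := by
      intro x hx
      by_contra hx𝔮
      have hu : IsUnit (algebraMap R S x) := (IsLocalization.AtPrime.isUnit_to_map_iff S 𝔮 x).2 hx𝔮
      exact hP.ne_top (Ideal.eq_top_of_isUnit_mem _ hx hu)
    have : p = 𝔮 := ssl_eq_of_le_of_ne_bot hp0 h1 hple
    rw [hmax, ← hPmap, this]
  have hPIR : IsPrincipalIdealRing S :=
    ((tfae_of_isNoetherianRing_of_isLocalRing_of_isDomain S).out 3 0).1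
      (⟨hic, hprime⟩ : IsIntegrallyClosed S ∧
        ∀ P : Ideal S, P ≠ ⊥ → P.IsPrime → P = maximalIdeal S)
  refine { not_a_field' := ?_ }
  rw [hmax]
  intro h0
  apply h𝔮0
  rw [eq_bot_iff]
  intro x hx
  have : algebraMap R S x ∈ (⊥ : Ideal S) := h0 ▸ Ideal.mem_map_of_mem _ hx
  rw [Ideal.mem_bot] at this
  rw [Ideal.mem_bot]
  exact (IsLocalization.injective S 𝔮.primeCompl_le_nonZeroDivisors) (by rw [this, map_zero])

instance ssl_locSub_isFractionRing (𝔮 : Ideal R) [𝔮.IsPrime] :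
    IsFractionRing (ssl_locSub F 𝔮) F :=
  Localization.subalgebra.isFractionRing_ofField F 𝔮.primeCompl 𝔮.primeCompl_le_nonZeroDivisors

/-- `R_𝔮` as a valuation subring of `F`, `𝔮` of height one. -/
noncomputable def ssl_valAt (𝔮 : Ideal R) [𝔮.IsPrime] (h1 : 𝔮.height = 1) : ValuationSubring F :=
  { (ssl_locSub F 𝔮).toSubring with
    mem_or_inv_mem' := fun z => by
      haveI := ssl_locSub_isDVR (F := F) 𝔮 h1
      rcases ValuationRing.isInteger_or_isInteger (ssl_locSub F 𝔮) z with ⟨o, ho⟩ | ⟨o, ho⟩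
      · exact Or.inl (ho ▸ o.2)
      · exact Or.inr (ho ▸ o.2) }

theorem ssl_mem_valAt (𝔮 : Ideal R) [𝔮.IsPrime] (h1 : 𝔮.height = 1) {z : F} :
    z ∈ ssl_valAt (F := F) 𝔮 h1 ↔ ssl_MemAt F 𝔮 z :=
  ssl_mem_locSub 𝔮 z

end ValAt

section VUnit

variable {F : Type*} [Field F]

/-- `z` is a unit of the valuation subring `V`. -/
def ssl_VUnit (V : ValuationSubring F) (z : F) : Prop := z ≠ 0 ∧ z ∈ V ∧ z⁻¹ ∈ V

variable {V : ValuationSubring F}

theorem ssl_vUnit_one : ssl_VUnit V (1 : F) := ⟨one_ne_zero, V.one_mem, by rw [inv_one]; exact V.one_mem⟩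

theorem ssl_vUnit_mul {z w : F} (hz : ssl_VUnit V z) (hw : ssl_VUnit V w) : ssl_VUnit V (z * w) :=
  ⟨mul_ne_zero hz.1 hw.1, V.mul_mem _ _ hz.2.1 hw.2.1, by
    rw [mul_inv]; exact V.mul_mem _ _ hz.2.2 hw.2.2⟩

theorem ssl_vUnit_inv {z : F} (hz : ssl_VUnit V z) : ssl_VUnit V z⁻¹ :=
  ⟨inv_ne_zero hz.1, hz.2.2, by rw [inv_inv]; exact hz.2.1⟩

theorem ssl_vUnit_div {z w : F} (hz : ssl_VUnit V z) (hw : ssl_VUnit V w) : ssl_VUnit V (z / w) := by
  rw [div_eq_mul_inv]; exact ssl_vUnit_mul hz (ssl_vUnit_inv hw)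

theorem ssl_vUnit_pow {z : F} (hz : ssl_VUnit V z) (n : ℕ) : ssl_VUnit V (z ^ n) := by
  induction n with
  | zero => rw [pow_zero]; exact ssl_vUnit_one
  | succ n ih => rw [pow_succ]; exact ssl_vUnit_mul ih hz

theorem ssl_vUnit_zpow {z : F} (hz : ssl_VUnit V z) (n : ℤ) : ssl_VUnit V (z ^ n) := by
  cases n with
  | ofNat n => rw [Int.ofNat_eq_natCast, zpow_natCast]; exact ssl_vUnit_pow hz n
  | negSucc n => rw [zpow_negSucc]; exact ssl_vUnit_inv (ssl_vUnit_pow hz _)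

/-- a unit is not in the maximal ideal. -/
theorem ssl_vUnit_not_mem_nonunits {z : F} (hz : ssl_VUnit V z) : z ∉ V.nonunits := by
  rw [ValuationSubring.mem_nonunits_iff_or]
  rintro (h | h)
  · exact hz.1 h
  · exact h hz.2.2

/-- an element of `V` outside the maximal ideal is a unit. -/
theorem ssl_vUnit_of_not_mem_nonunits {z : F} (hz : z ∈ V) (h : z ∉ V.nonunits) : ssl_VUnit V z := by
  rw [ValuationSubring.mem_nonunits_iff_or, not_or, not_not] at h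
  exact ⟨h.1, hz, h.2⟩

end VUnit

section ValAt2

variable {R : Type*} [CommRing R] [IsDomain R] [IsNoetherianRing R] [IsIntegrallyClosed R]
  {F : Type*} [Field F] [Algebra R F] [IsFractionRing R F]

theorem ssl_vUnit_valAt (𝔮 : Ideal R) [𝔮.IsPrime] (h1 : 𝔮.height = 1) {z : F} :
    ssl_VUnit (ssl_valAt (F := F) 𝔮 h1) z ↔ ssl_UnitAt F 𝔮 z := by
  constructor
  · rintro ⟨hz, h, h'⟩
    exact (ssl_unitAt_iff 𝔮 hz).2 ⟨(ssl_mem_valAt 𝔮 h1).1 h, (ssl_mem_valAt 𝔮 h1).1 h'⟩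
  · intro h
    have hz := ssl_unitAt_ne_zero 𝔮 h
    obtain ⟨h2, h3⟩ := (ssl_unitAt_iff 𝔮 hz).1 h
    exact ⟨hz, (ssl_mem_valAt 𝔮 h1).2 h2, (ssl_mem_valAt 𝔮 h1).2 h3⟩

/-- the maximal ideal of `R_𝔮` is `𝔮 R_𝔮`. -/
theorem ssl_mem_valAt_nonunits (𝔮 : Ideal R) [h𝔮 : 𝔮.IsPrime] (h1 : 𝔮.height = 1) {z : F} :
    z ∈ (ssl_valAt (F := F) 𝔮 h1).nonunits ↔
      ∃ b s : R, b ∈ 𝔮 ∧ s ∉ 𝔮 ∧ z * algebraMap R F s = algebraMap R F b := by
  constructor
  · intro hz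
    have hzV : z ∈ ssl_valAt (F := F) 𝔮 h1 := ValuationSubring.nonunits_subset hz
    obtain ⟨a, s, hs, h⟩ := (ssl_mem_valAt 𝔮 h1).1 hzV
    refine ⟨a, s, ?_, hs, h⟩
    by_contra ha
    have hu : ssl_UnitAt F 𝔮 z := ⟨a, s, ha, hs, h⟩
    exact ssl_vUnit_not_mem_nonunits ((ssl_vUnit_valAt 𝔮 h1).2 hu) hz
  · rintro ⟨b, s, hb, hs, h⟩
    rw [ValuationSubring.mem_nonunits_iff_or]
    by_cases hz : z = 0
    · exact Or.inl hz
    · right
      intro hinv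
      obtain ⟨a', s', hs', h'⟩ := (ssl_mem_valAt 𝔮 h1).1 hinv
      have h2 : s * s' = b * a' := by
        apply IsFractionRing.injective R F
        rw [map_mul, map_mul, ← h, ← h']
        field_simp
      have : s * s' ∈ 𝔮 := h2 ▸ 𝔮.mul_mem_right _ hb
      exact (h𝔮.mem_or_mem this).elim hs hs'

theorem ssl_valAt_ne_top (𝔮 : Ideal R) [h𝔮 : 𝔮.IsPrime] (h1 : 𝔮.height = 1) :
    ssl_valAt (F := F) 𝔮 h1 ≠ ⊤ := by
  intro htop
  have h𝔮0 : 𝔮 ≠ ⊥ := Ideal.ne_bot_of_height_eq_one h1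
  obtain ⟨t, ht, ht0⟩ := Submodule.exists_mem_ne_zero_of_ne_bot h𝔮0
  have hmem : (algebraMap R F t)⁻¹ ∈ ssl_valAt (F := F) 𝔮 h1 := by
    rw [htop]; exact ValuationSubring.mem_top _
  obtain ⟨a, s, hs, h⟩ := (ssl_mem_valAt 𝔮 h1).1 hmem
  have htF : algebraMap R F t ≠ 0 := ssl_algebraMap_ne_zero ht0
  have h2 : s = a * t := by
    apply IsFractionRing.injective R F
    rw [map_mul, ← h]
    field_simp
  exact hs (h2 ▸ 𝔮.mul_mem_left _ ht)

instance ssl_valAt_isPrincipalIdealRing (𝔮 : Ideal R) [𝔮.IsPrime] (h1 : 𝔮.height = 1) :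
    IsPrincipalIdealRing ↥(ssl_valAt (F := F) 𝔮 h1) := by
  haveI := ssl_locSub_isDVR (F := F) 𝔮 h1
  let φ : ↥(ssl_locSub F 𝔮) →+* ↥(ssl_valAt (F := F) 𝔮 h1) :=
    { toFun := fun x => ⟨x, x.2⟩
      map_one' := rfl
      map_mul' := fun _ _ => rfl
      map_zero' := rfl
      map_add' := fun _ _ => rfl }
  exact IsPrincipalIdealRing.of_surjective φ (fun x => ⟨⟨x, x.2⟩, rfl⟩)

/-- **the order at a prime of height one with a local generator `t`**: every nonzero `z ∈ F` is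
`t ^ n` times a unit of `R_𝔮`. -/
theorem ssl_exists_zpow (𝔮 : Ideal R) [h𝔮 : 𝔮.IsPrime] (h1 : 𝔮.height = 1) {t : R} (ht : t ∈ 𝔮)
    (hgen : ∀ z ∈ 𝔮, ∃ s : R, s ∉ 𝔮 ∧ t ∣ s * z) {z : F} (hz : z ≠ 0) :
    ∃ n : ℤ, ssl_UnitAt F 𝔮 (z / algebraMap R F t ^ n) := by
  set S := ssl_locSub F 𝔮 with hS
  haveI hDVR : IsDiscreteValuationRing S := ssl_locSub_isDVR (F := F) 𝔮 h1
  have hmax : maximalIdeal S = Ideal.span {algebraMap R S t} := by
    rw [← IsLocalization.AtPrime.map_eq_maximalIdeal 𝔮 S]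
    apply le_antisymm
    · rw [Ideal.map_le_iff_le_comap]
      intro x hx
      obtain ⟨s, hs, c, hc⟩ := hgen x hx
      rw [Ideal.mem_comap]
      have hu : IsUnit (algebraMap R S s) := (IsLocalization.AtPrime.isUnit_to_map_iff S 𝔮 s).2 hs
      have h2 : algebraMap R S s * algebraMap R S x ∈ Ideal.span {algebraMap R S t} := by
        rw [← map_mul, hc, map_mul]
        exact Ideal.mul_mem_right _ _ (Ideal.mem_span_singleton_self _)
      exact (Ideal.unit_mul_mem_iff_mem _ hu).1 h2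
    · rw [Ideal.span_le, Set.singleton_subset_iff]
      exact Ideal.mem_map_of_mem _ ht
  have hirr : Irreducible (algebraMap R S t) :=
    (IsDiscreteValuationRing.irreducible_iff_uniformizer _).2 hmax
  obtain ⟨n, u, hu⟩ :=
    IsDiscreteValuationRing.exists_units_eq_smul_zpow_of_irreducible (K := F) hirr hz
  refine ⟨n, ?_⟩
  have htF : algebraMap R F t ≠ 0 := by
    have := hirr.ne_zero
    intro h0
    apply this
    apply Subtype.ext
    exact h0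
  have hcoe : algebraMap S F (algebraMap R S t) = algebraMap R F t := rfl
  have hzu : z / algebraMap R F t ^ n = ((u : S) : F) := by
    rw [hu, hcoe, Units.smul_def, Algebra.smul_def]
    have : algebraMap S F (u : S) = ((u : S) : F) := rfl
    rw [this, mul_div_assoc, div_self (zpow_ne_zero n htF), mul_one]
  rw [hzu]
  have hu0 : ((u : S) : F) ≠ 0 := by
    intro h0
    exact u.ne_zero (Subtype.ext h0)
  rw [ssl_unitAt_iff 𝔮 hu0]
  refine ⟨(ssl_mem_locSub 𝔮 _).1 (u : S).2, ?_⟩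
  have hinv : ((u : S) : F)⁻¹ = (((u⁻¹ : Sˣ) : S) : F) := by
    have h3 : ((u : S) : F) * (((u⁻¹ : Sˣ) : S) : F) = 1 := by
      have h4 : ((u : S) * ((u⁻¹ : Sˣ) : S) : S) = 1 := u.mul_inv
      have h5 := congrArg (fun x : S => (x : F)) h4
      exact h5
    exact (eq_inv_of_mul_eq_one_right h3).symm
  rw [hinv]
  exact (ssl_mem_locSub 𝔮 _).1 ((u⁻¹ : Sˣ) : S).2

/-- **finiteness of the support**: a nonzero `g ∈ F` is a unit at all but finitely many primes of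
height one. -/
theorem ssl_finite_support {g : F} (hg : g ≠ 0) :
    {𝔮 : Ideal R | 𝔮.IsPrime ∧ 𝔮.height = 1 ∧ ¬ ssl_UnitAt F 𝔮 g}.Finite := by
  obtain ⟨a, b, hb, rfl⟩ := IsFractionRing.div_surjective (A := R) g
  have hb0 : b ≠ 0 := nonZeroDivisors.ne_zero hb
  have hbF : algebraMap R F b ≠ 0 := ssl_algebraMap_ne_zero hb0
  have ha0 : a ≠ 0 := by
    rintro rfl
    rw [map_zero, zero_div] at hg
    exact hg rfl
  have hab : a * b ≠ 0 := mul_ne_zero ha0 hb0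
  refine Set.Finite.subset (Ideal.finite_minimalPrimes_of_isNoetherianRing R (Ideal.span {a * b})) ?_
  rintro 𝔮 ⟨h𝔮, h1, hnu⟩
  have hmem : a * b ∈ 𝔮 := by
    by_contra hnot
    apply hnu
    refine ⟨a, b, fun ha => hnot (𝔮.mul_mem_right _ ha), fun hb' => hnot (𝔮.mul_mem_left _ hb'), ?_⟩
    rw [div_mul_cancel₀ _ hbF]
  refine ⟨⟨h𝔮, ?_⟩, ?_⟩
  · rw [Ideal.span_le, Set.singleton_subset_iff]; exact hmem
  · rintro p ⟨hp, hple⟩ hp𝔮
    have hp0 : p ≠ ⊥ := by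
      rintro rfl
      have : a * b ∈ (⊥ : Ideal R) := hple (Ideal.mem_span_singleton_self _)
      exact hab ((Ideal.mem_bot).1 this)
    haveI := hp
    exact (ssl_eq_of_le_of_ne_bot hp0 h1 hp𝔮).ge

end ValAt2

end Fermat.Agent.SS
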