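/-
Project SS (S34), cell [L] LOCAL FACTORISATION, leaf [L-NODE] (helper20): a local equation modulo
vertical divisors of a RATIONAL horizontal prime through a node.

`R` a noetherian local domain over the DVR `A0` (uniformiser `π`, fraction field `L`),
`𝔪_R = (π, u, v)`, `u v = a ∈ A0 ∖ 0`; `𝔮` a horizontal prime of height one (`π ∉ 𝔮`) which is
`L`-rational: every element of `R_𝔮` is congruent to a constant `c ∈ L` modulo `𝔮 R_𝔮`.  Then
* the constants lie in `A0` and `A0 → R ⧸ 𝔮` is bijective: `𝔮 = ker P` for an `A0`-section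
  `P : R →ₐ[A0] A0` (`ssl_np_section`);
* `t := u - P u` is a local equation of `𝔮` modulo vertical divisors (`ssl_node_locEq`), by
  helper6's `ssn_smul`, `ssn_prime` (`SS/Node.lean`).
Prefix `ssl_np_`.
-/
import Mathlib
import Fermat.Agent.SS.Local.Defs
import Fermat.Agent.SS.Node

set_option autoImplicit false
set_option linter.unusedSectionVars false

namespace Fermat.Agent.SS

open IsLocalRing

section NodePE

variable {A0 L R F : Type*} [CommRing A0] [IsDomain A0] [IsDiscreteValuationRing A0]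
  [Field L] [Algebra A0 L] [IsFractionRing A0 L]
  [CommRing R] [IsDomain R] [IsLocalRing R] [Algebra A0 R]
  [Field F] [Algebra R F] [IsFractionRing R F] [Algebra L F] [Algebra A0 F]
  [IsScalarTower A0 L F] [IsScalarTower A0 R F]

omit [IsDomain R] [IsLocalRing R] in
/-- nonzero constants do not lie in a prime not containing `π`. -/
theorem ssl_np_const_not_mem {π : A0} (hπ : Irreducible π) (𝔮 : Ideal R) [𝔮.IsPrime]
    (hπ𝔮 : algebraMap A0 R π ∉ 𝔮) {c : A0} (hc : c ≠ 0) : algebraMap A0 R c ∉ 𝔮 := by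
  obtain ⟨n, hn⟩ := IsDiscreteValuationRing.associated_pow_irreducible hc hπ
  obtain ⟨e, he⟩ := hn.symm
  intro hmem
  rw [← he, map_mul, map_pow] at hmem
  rcases Ideal.IsPrime.mem_or_mem inferInstance hmem with h | h
  · exact hπ𝔮 (Ideal.IsPrime.mem_of_pow_mem inferInstance n h)
  · exact (Ideal.IsPrime.ne_top inferInstance : 𝔮 ≠ ⊤)
      (Ideal.eq_top_of_isUnit_mem _ h (e.isUnit.map (algebraMap A0 R)))

omit [IsDomain R] in
/-- the constants of an `L`-rational prime are integral: if `(r - c) s = b` in `F` with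
`b ∈ 𝔮`, `s ∉ 𝔮`, `c ∈ L`, then `c ∈ A0`. -/
theorem ssl_np_const_integral {π : A0} (hπ : Irreducible π)
    (hπm : algebraMap A0 R π ∈ maximalIdeal R) (𝔮 : Ideal R) [𝔮.IsPrime]
    {r b s : R} {c : L} (hb : b ∈ 𝔮) (hs : s ∉ 𝔮)
    (h : (algebraMap R F r - algebraMap L F c) * algebraMap R F s = algebraMap R F b) :
    ∃ c0 : A0, algebraMap A0 L c0 = c := by
  by_cases hc0 : c = 0
  · exact ⟨0, by rw [map_zero, hc0]⟩
  rcases ValuationRing.isInteger_or_isInteger A0 c with ⟨c0, hc0'⟩ | ⟨d, hd⟩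
  · exact ⟨c0, hc0'⟩
  by_cases hdu : IsUnit d
  · obtain ⟨d', hd'⟩ := hdu.exists_right_inv
    refine ⟨d', ?_⟩
    have h1 : algebraMap A0 L d * algebraMap A0 L d' = 1 := by
      rw [← map_mul, hd', map_one]
    rw [hd] at h1
    exact ((inv_mul_eq_one₀ hc0).mp h1).symm
  · exfalso
    have hdm : d ∈ maximalIdeal A0 := (mem_maximalIdeal d).mpr hdu
    rw [hπ.maximalIdeal_eq, Ideal.mem_span_singleton] at hdm
    obtain ⟨d', rfl⟩ := hdm
    have hdR : algebraMap A0 R (π * d') ∈ maximalIdeal R := by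
      rw [map_mul]
      exact Ideal.mul_mem_right _ _ hπm
    set dR : R := algebraMap A0 R (π * d') with hdRdef
    have hdF : algebraMap R F dR = algebraMap L F c⁻¹ := by
      rw [hdRdef, ← IsScalarTower.algebraMap_apply A0 R F, IsScalarTower.algebraMap_apply A0 L F]
      exact congrArg _ hd
    have hkey : (dR * r - 1) * s = dR * b := by
      apply IsFractionRing.injective R F
      rw [map_mul, map_sub, map_mul, map_one, map_mul, hdF, ← h]
      have h1 : algebraMap L F c⁻¹ * algebraMap L F c = 1 := by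
        rw [← map_mul, inv_mul_cancel₀ hc0, map_one]
      linear_combination (algebraMap R F s) * h1
    have h2 : dR * r - 1 ∈ 𝔮 := by
      have : (dR * r - 1) * s ∈ 𝔮 := by rw [hkey]; exact Ideal.mul_mem_left _ _ hb
      exact (Ideal.IsPrime.mem_or_mem inferInstance this).resolve_right hs
    have h3 : dR * r - 1 ∈ maximalIdeal R :=
      le_maximalIdeal (Ideal.IsPrime.ne_top inferInstance) h2
    have h4 : (1 : R) ∈ maximalIdeal R := by
      have : (1 : R) = dR * r - (dR * r - 1) := by ring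
      rw [this]
      exact Ideal.sub_mem _ (Ideal.mul_mem_right _ _ hdR) h3
    exact (Ideal.ne_top_iff_one _).mp (Ideal.IsPrime.ne_top inferInstance) h4

omit [IsDomain R] in
/-- every element of `R` is congruent modulo an `L`-rational horizontal prime to a constant of
`A0`. -/
theorem ssl_np_exists_const {π : A0} (hπ : Irreducible π)
    (hπm : algebraMap A0 R π ∈ maximalIdeal R) (𝔮 : Ideal R) [𝔮.IsPrime]
    (hrat : ∀ z : F, ssl_MemAt F 𝔮 z → ∃ (c : L) (b s : R), b ∈ 𝔮 ∧ s ∉ 𝔮 ∧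
      (z - algebraMap L F c) * algebraMap R F s = algebraMap R F b) (r : R) :
    ∃ c0 : A0, r - algebraMap A0 R c0 ∈ 𝔮 := by
  have h1 : ssl_MemAt F 𝔮 (algebraMap R F r) :=
    ⟨r, 1, fun h => (Ideal.ne_top_iff_one _).mp (Ideal.IsPrime.ne_top inferInstance) h,
      by rw [map_one, mul_one]⟩
  obtain ⟨c, b, s, hb, hs, h⟩ := hrat _ h1
  obtain ⟨c0, rfl⟩ := ssl_np_const_integral (F := F) hπ hπm 𝔮 hb hs h
  refine ⟨c0, ?_⟩
  have hkey : (r - algebraMap A0 R c0) * s = b := by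
    apply IsFractionRing.injective R F
    rw [map_mul, map_sub, ← IsScalarTower.algebraMap_apply A0 R F,
      IsScalarTower.algebraMap_apply A0 L F]
    exact h
  have : (r - algebraMap A0 R c0) * s ∈ 𝔮 := by rw [hkey]; exact hb
  exact (Ideal.IsPrime.mem_or_mem inferInstance this).resolve_right hs

omit [IsDomain R] in
/-- **the section of a rational horizontal prime**: `𝔮 = ker P` for an `A0`-algebra map
`P : R →ₐ[A0] A0`. -/
theorem ssl_np_section {π : A0} (hπ : Irreducible π)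
    (hπm : algebraMap A0 R π ∈ maximalIdeal R) (𝔮 : Ideal R) [𝔮.IsPrime]
    (hπ𝔮 : algebraMap A0 R π ∉ 𝔮)
    (hrat : ∀ z : F, ssl_MemAt F 𝔮 z → ∃ (c : L) (b s : R), b ∈ 𝔮 ∧ s ∉ 𝔮 ∧
      (z - algebraMap L F c) * algebraMap R F s = algebraMap R F b) :
    ∃ P : R →ₐ[A0] A0, RingHom.ker (P : R →+* A0) = 𝔮 := by
  have hinj : Function.Injective (algebraMap A0 (R ⧸ 𝔮)) := by
    rw [injective_iff_map_eq_zero]
    intro c hc
    by_contra hc0
    rw [IsScalarTower.algebraMap_apply A0 R (R ⧸ 𝔮), Ideal.Quotient.algebraMap_eq,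
      Ideal.Quotient.eq_zero_iff_mem] at hc
    exact ssl_np_const_not_mem hπ 𝔮 hπ𝔮 hc0 hc
  have hsurj : Function.Surjective (algebraMap A0 (R ⧸ 𝔮)) := by
    intro y
    obtain ⟨r, rfl⟩ := Ideal.Quotient.mk_surjective y
    obtain ⟨c0, hc0⟩ := ssl_np_exists_const (F := F) hπ hπm 𝔮 hrat r
    refine ⟨c0, ?_⟩
    rw [IsScalarTower.algebraMap_apply A0 R (R ⧸ 𝔮), Ideal.Quotient.algebraMap_eq]
    exact (Ideal.Quotient.eq.mpr hc0).symm
  let e : A0 ≃ₐ[A0] (R ⧸ 𝔮) := AlgEquiv.ofBijective (Algebra.ofId A0 (R ⧸ 𝔮)) ⟨hinj, hsurj⟩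
  refine ⟨(e.symm : (R ⧸ 𝔮) →ₐ[A0] A0).comp (Ideal.Quotient.mkₐ A0 𝔮), ?_⟩
  ext r
  rw [RingHom.mem_ker]
  show e.symm (Ideal.Quotient.mk 𝔮 r) = 0 ↔ r ∈ 𝔮
  rw [map_eq_zero_iff _ e.symm.injective, Ideal.Quotient.eq_zero_iff_mem]

end NodePE

section Main

variable {A0 L R F : Type*} [CommRing A0] [IsDomain A0] [IsDiscreteValuationRing A0]
  [Field L] [Algebra A0 L] [IsFractionRing A0 L]
  [CommRing R] [IsDomain R] [IsLocalRing R] [IsNoetherianRing R] [Algebra A0 R]
  [Field F] [Algebra R F] [IsFractionRing R F] [Algebra L F] [Algebra A0 F]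
  [IsScalarTower A0 L F] [IsScalarTower A0 R F]

/-- **[L-NODE]**: a rational horizontal prime through the node `u v = a` has a local equation
modulo vertical divisors, namely `u - P u`. -/
theorem ssl_node_locEq {π : A0} (hπ : Irreducible π) {u v : R} {a : A0} (ha : a ≠ 0)
    (huv : u * v = algebraMap A0 R a)
    (hm : maximalIdeal R = Ideal.span {algebraMap A0 R π, u, v})
    (𝔮 : Ideal R) (h𝔮 : ssl_Horiz (algebraMap A0 R π) 𝔮)
    (hrat : ∀ z : F, ssl_MemAt F 𝔮 z → ∃ (c : L) (b s : R), b ∈ 𝔮 ∧ s ∉ 𝔮 ∧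
      (z - algebraMap L F c) * algebraMap R F s = algebraMap R F b) :
    ∃ t : R, ssl_LocEq (algebraMap A0 R π) 𝔮 t := by
  obtain ⟨h𝔮p, h𝔮h, hπ𝔮⟩ := h𝔮
  have := h𝔮p
  have hπm : algebraMap A0 R π ∈ maximalIdeal R := by
    rw [hm]; exact Ideal.subset_span (by simp)
  have hum : u ∈ maximalIdeal R := by
    rw [hm]; exact Ideal.subset_span (by simp)
  have hvm : v ∈ maximalIdeal R := by
    rw [hm]; exact Ideal.subset_span (by simp)
  obtain ⟨P, hP⟩ := ssl_np_section (F := F) hπ hπm 𝔮 hπ𝔮 hrat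
  have h𝔮m : 𝔮 ≤ maximalIdeal R := le_maximalIdeal (Ideal.IsPrime.ne_top inferInstance)
  -- `P` is local: `π ∣ P x` for `x ∈ 𝔪_R`
  have hloc : ∀ x ∈ maximalIdeal R, π ∣ P x := by
    intro x hx
    by_contra hnd
    have hux : IsUnit (P x) := by
      by_contra hnu
      have : P x ∈ maximalIdeal A0 := (mem_maximalIdeal _).mpr hnu
      rw [hπ.maximalIdeal_eq, Ideal.mem_span_singleton] at this
      exact hnd this
    have h1 : x - algebraMap A0 R (P x) ∈ maximalIdeal R := by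
      apply h𝔮m
      rw [← hP]
      exact ssn_sub_mem_ker P x
    have h2 : algebraMap A0 R (P x) ∈ maximalIdeal R := by
      have : algebraMap A0 R (P x) = x - (x - algebraMap A0 R (P x)) := by ring
      rw [this]
      exact Ideal.sub_mem _ hx h1
    exact (mem_maximalIdeal _).mp h2 (hux.map (algebraMap A0 R))
  have hu : π ∣ P u := hloc u hum
  have hv : π ∣ P v := hloc v hvm
  have hPuv : P u * P v = a := by
    have := congrArg P huv
    rwa [map_mul, AlgHom.commutes, Algebra.algebraMap_self_apply] at this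
  have hPu0 : P u ≠ 0 := by
    rintro h0
    rw [h0, zero_mul] at hPuv
    exact ha hPuv.symm
  have hπ0 : π ≠ 0 := hπ.ne_zero
  refine ⟨u - algebraMap A0 R (P u), ?_, ?_, ?_⟩
  · rw [← hP]
    exact ssn_sub_mem_ker P u
  · intro z hz
    refine ⟨algebraMap A0 R (P u), ssl_np_const_not_mem hπ 𝔮 hπ𝔮 hPu0, ?_⟩
    rw [← hP] at hz
    obtain ⟨w, hw⟩ := ssn_smul hm hπ0 huv P hu hv hz
    exact ⟨w, hw⟩
  · rintro 𝔮' ⟨h𝔮'p, h𝔮'h, hπ𝔮'⟩ ht
    have := h𝔮'p
    have hle : 𝔮 ≤ 𝔮' := by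
      rw [← hP]
      exact ssn_prime hm hπ0 huv P hu hv 𝔮' ht (ssl_np_const_not_mem hπ 𝔮' hπ𝔮' hPu0)
    have hfin : 𝔮.FiniteHeight := by
      rw [Ideal.finiteHeight_iff]
      right
      rw [h𝔮h]
      exact ENat.one_ne_top
    have hh : 𝔮'.height ≤ 𝔮.height := by rw [h𝔮h, h𝔮'h]
    exact (Ideal.eq_of_le_of_height_le 𝔮 hle hh).symm

end Main

end Fermat.Agent.SS
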