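/-
Project SS (S34), cell [L] (helper10): HORIZONTAL PRIMES ARE PLACES (prefix `ssl_`).

`A0` a discrete valuation ring with uniformiser `π` and fraction field `K`; `F0 / K` a field;
`R ⊆ F0` a noetherian integrally closed `A0`-algebra with fraction field `F0` (`R = B_𝔫`).
A horizontal prime `𝔮` of `R` (height one, `π ∉ 𝔮`) defines a place `ssl_placeAt` of `F0 / K`
(its valuation ring `R_𝔮` contains `K = A0[1/π]`).  Hence the hypotheses of `ss_CoreAt` on the
places of `F0 / K` give, at the horizontal primes of `R`: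
* `ssl_hdiv_of_places` : `m ∣ ord_P g` for all places ⟹ `g` is a unit of `R_𝔮` times an `m`-th power;
* `ssl_hrat_of_places` : the zeros and poles of `g` are rational ⟹ a horizontal prime at which `g`
  is not a unit is `K`-rational (the hypothesis `hrat` of `ssl_node_locEq`).
-/
import Mathlib
import Fermat.Agent.SS.CoreSeam
import Fermat.Agent.SS.Local.Height1
import Fermat.Agent.SS.Local.NodePE

set_option autoImplicit false
set_option linter.unusedSectionVars false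
set_option linter.style.haveILetI false

namespace Fermat.Agent.SS

open AlgebraicCurve

universe v

section Places

variable {A0 : Type*} [CommRing A0] [IsDomain A0] [IsDiscreteValuationRing A0]
  {K : Type*} [Field K] [Algebra A0 K] [IsFractionRing A0 K]
  {F0 : Type v} [Field F0] [Algebra A0 F0] [Algebra K F0] [IsScalarTower A0 K F0]
  {R : Type*} [CommRing R] [IsDomain R] [IsNoetherianRing R] [IsIntegrallyClosed R]
  [Algebra A0 R] [Algebra R F0] [IsFractionRing R F0] [IsScalarTower A0 R F0]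
  {π : A0} (hπ : Irreducible π)

include hπ in
omit [IsNoetherianRing R] [IsIntegrallyClosed R] [IsFractionRing R F0] [IsDomain R] in
/-- the constants lie in `R_𝔮` for a prime `𝔮` not containing `π`. -/
theorem ssl_const_memAt (𝔮 : Ideal R) [𝔮.IsPrime] (hπ𝔮 : algebraMap A0 R π ∉ 𝔮) (c : K) :
    ssl_MemAt F0 𝔮 (algebraMap K F0 c) := by
  obtain ⟨a, b, hb, rfl⟩ := IsFractionRing.div_surjective (A := A0) c
  have hb0 : b ≠ 0 := nonZeroDivisors.ne_zero hb
  refine ⟨algebraMap A0 R a, algebraMap A0 R b, ssl_np_const_not_mem hπ 𝔮 hπ𝔮 hb0, ?_⟩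
  rw [← IsScalarTower.algebraMap_apply A0 R F0, ← IsScalarTower.algebraMap_apply A0 R F0,
    IsScalarTower.algebraMap_apply A0 K F0 a, IsScalarTower.algebraMap_apply A0 K F0 b,
    ← map_mul]
  congr 1
  have : algebraMap A0 K b ≠ 0 :=
    (map_ne_zero_iff _ (IsFractionRing.injective A0 K)).2 hb0
  field_simp

/-- **the place of `F0 / K` attached to a horizontal prime of `R`.** -/
noncomputable def ssl_placeAt (𝔮 : Ideal R) (h𝔮 : ssl_Horiz (algebraMap A0 R π) 𝔮) :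
    Place K F0 :=
  haveI := h𝔮.1
  { toValuationSubring := ssl_valAt (F := F0) 𝔮 h𝔮.2.1
    algebraMap_mem' := fun c => (ssl_mem_valAt 𝔮 h𝔮.2.1).2 (ssl_const_memAt hπ 𝔮 h𝔮.2.2 c)
    ne_top' := ssl_valAt_ne_top 𝔮 h𝔮.2.1
    isPrincipalIdealRing' := ssl_valAt_isPrincipalIdealRing 𝔮 h𝔮.2.1 }

theorem ssl_placeAt_val (𝔮 : Ideal R) (h𝔮 : ssl_Horiz (algebraMap A0 R π) 𝔮) :
    (ssl_placeAt hπ 𝔮 h𝔮 : Place K F0).toValuationSubring =
      (haveI := h𝔮.1; ssl_valAt (F := F0) 𝔮 h𝔮.2.1) := rfl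

/-- a function of order `m k` at the place of `𝔮` is a unit of `R_𝔮` times an `m`-th power. -/
theorem ssl_unitAt_of_ord (𝔮 : Ideal R) (h𝔮 : ssl_Horiz (algebraMap A0 R π) 𝔮) {g : F0}
    (hg : g ≠ 0) (m : ℕ) (k : ℤ) (hk : (ssl_placeAt hπ 𝔮 h𝔮 : Place K F0).ord g = (m : ℤ) * k) :
    ∃ G : F0, G ≠ 0 ∧ ssl_UnitAt F0 𝔮 (g / G ^ m) := by
  haveI := h𝔮.1
  set P : Place K F0 := ssl_placeAt hπ 𝔮 h𝔮 with hP
  obtain ⟨ϖ, hϖ⟩ := IsDiscreteValuationRing.exists_irreducible P.toValuationSubring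
  obtain ⟨u, hu⟩ := P.exists_unit_mul_zpow hg hϖ
  have hϖ0 : (ϖ : F0) ≠ 0 := fun h0 => hϖ.ne_zero (Subtype.ext h0)
  refine ⟨(ϖ : F0) ^ k, zpow_ne_zero k hϖ0, ?_⟩
  have hgu : g / ((ϖ : F0) ^ k) ^ m = ((u : P.toValuationSubring) : F0) := by
    have h1 : ((ϖ : F0) ^ k) ^ m = (ϖ : F0) ^ (P.ord g) := by
      rw [hk, ← zpow_natCast, ← zpow_mul, mul_comm]
    rw [h1]
    have h2 : (ϖ : F0) ^ (P.ord g) ≠ 0 := zpow_ne_zero _ hϖ0
    rw [div_eq_iff h2]
    exact hu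
  rw [hgu]
  rw [← ssl_vUnit_valAt 𝔮 h𝔮.2.1]
  have hu0 : ((u : P.toValuationSubring) : F0) ≠ 0 := fun h0 => u.ne_zero (Subtype.ext h0)
  refine ⟨hu0, (u : P.toValuationSubring).2, ?_⟩
  have hinv : (((u : P.toValuationSubring) : F0))⁻¹ =
      (((u⁻¹ : (P.toValuationSubring)ˣ) : P.toValuationSubring) : F0) := by
    have h4 : ((u : P.toValuationSubring) * ((u⁻¹ : (P.toValuationSubring)ˣ) :
        P.toValuationSubring) : P.toValuationSubring) = 1 := u.mul_inv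
    have h5 := congrArg (fun x : P.toValuationSubring => (x : F0)) h4
    exact (eq_inv_of_mul_eq_one_right h5).symm
  rw [hinv]
  exact ((u⁻¹ : (P.toValuationSubring)ˣ) : P.toValuationSubring).2

include hπ in
/-- **divisibility of the orders at the places ⟹ `hdiv` at the horizontal primes.** -/
theorem ssl_hdiv_of_places {g : F0} (hg : g ≠ 0) (m : ℕ)
    (hord : ∀ P : Place K F0, (m : ℤ) ∣ P.ord g) (𝔮 : Ideal R)
    (h𝔮 : ssl_Horiz (algebraMap A0 R π) 𝔮) :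
    ∃ G : F0, G ≠ 0 ∧ ssl_UnitAt F0 𝔮 (g / G ^ m) := by
  obtain ⟨k, hk⟩ := hord (ssl_placeAt hπ 𝔮 h𝔮)
  exact ssl_unitAt_of_ord hπ 𝔮 h𝔮 hg m k hk

include hπ in
/-- **rationality of the zeros and poles ⟹ `hrat` at the horizontal primes where `g` is not a
unit.** -/
theorem ssl_hrat_of_places {g : F0} (hg : g ≠ 0)
    (hrat : ∀ P : Place K F0, P.ord g ≠ 0 → ss_RatPlace P) (𝔮 : Ideal R)
    (h𝔮 : ssl_Horiz (algebraMap A0 R π) 𝔮) (hnu : ¬ ssl_UnitAt F0 𝔮 g) (z : F0)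
    (hz : ssl_MemAt F0 𝔮 z) :
    ∃ (c : K) (b s : R), b ∈ 𝔮 ∧ s ∉ 𝔮 ∧
      (z - algebraMap K F0 c) * algebraMap R F0 s = algebraMap R F0 b := by
  haveI := h𝔮.1
  have hord : (ssl_placeAt hπ 𝔮 h𝔮 : Place K F0).ord g ≠ 0 := by
    intro h0
    apply hnu
    set P : Place K F0 := ssl_placeAt hπ 𝔮 h𝔮 with hP
    obtain ⟨ϖ, hϖ⟩ := IsDiscreteValuationRing.exists_irreducible P.toValuationSubring
    obtain ⟨u, hu⟩ := P.exists_unit_mul_zpow hg hϖ
    rw [h0, zpow_zero, mul_one] at hu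
    rw [hu, ← ssl_vUnit_valAt 𝔮 h𝔮.2.1]
    have hu0 : ((u : P.toValuationSubring) : F0) ≠ 0 := fun h0 => u.ne_zero (Subtype.ext h0)
    refine ⟨hu0, (u : P.toValuationSubring).2, ?_⟩
    have hinv : (((u : P.toValuationSubring) : F0))⁻¹ =
        (((u⁻¹ : (P.toValuationSubring)ˣ) : P.toValuationSubring) : F0) := by
      have h4 : ((u : P.toValuationSubring) * ((u⁻¹ : (P.toValuationSubring)ˣ) :
          P.toValuationSubring) : P.toValuationSubring) = 1 := u.mul_inv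
      have h5 := congrArg (fun x : P.toValuationSubring => (x : F0)) h4
      exact (eq_inv_of_mul_eq_one_right h5).symm
    rw [hinv]
    exact ((u⁻¹ : (P.toValuationSubring)ˣ) : P.toValuationSubring).2
  obtain ⟨c, hc⟩ := hrat _ hord z ((ssl_mem_valAt 𝔮 h𝔮.2.1).2 hz)
  obtain ⟨b, s, hb, hs, h⟩ := (ssl_mem_valAt_nonunits 𝔮 h𝔮.2.1).1 hc
  exact ⟨c, b, s, hb, hs, h⟩

end Places

end Fermat.Agent.SS
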