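/-
Project SS (S34), cell [L] (helper10): THE ABSTRACT CORE OF THE LOCAL FACTORISATION (prefix `ssl_`).

`R` a noetherian integrally closed domain with fraction field `F` (`R = B_𝔫`), `π ∈ R`;
`σ` an automorphism of `F` preserving `R`, with `σ ≡ id` modulo `π R`; `O ⊆ F` a subring ("the
semilocal Gauss ring" `sfc_O`, `= V1 ∩ V2`) and `PO ⊆ F` ("`π O`", `sfc_piO`) with
* `quot`  : `σ G / G ∈ O` for EVERY `G ∈ Fˣ` (the vertical orders are `σ`-invariant),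
* `res`   : `σ z - z ∈ PO` for `z ∈ O`,  `absorb` : `PO · O ⊆ PO`,
* `vert`  : every prime `𝔮` of height one of `R` containing `π` has `R_𝔮 ⊇ O`      (`ssl_Sigma`).

If `g ∈ Fˣ` is an `m`-th power modulo vertical divisors (`ssl_PowModVert`: `g / e₀ᵐ` is a unit at
every horizontal prime of height one) then
* `ssl_core`   : `σ g / g = ω eᵐ` with `ω ∈ Rˣ` and `e` a unit of `O`;
* `ssl_factor` : `h := σ(σ g / g) / (σ g / g) = (1 + π y) rᵐ` with `y ∈ R` and `r - 1 ∈ PO`.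
No valuation is computed at the vertical primes and nothing is asked of the shape of `R`.
-/
import Mathlib
import Fermat.Agent.SS.Local.Height1

set_option autoImplicit false
set_option linter.unusedSectionVars false
set_option linter.style.haveILetI false

namespace Fermat.Agent.SS

section Core

variable {R : Type*} [CommRing R] [IsDomain R] [IsNoetherianRing R] [IsIntegrallyClosed R]
  {F : Type*} [Field F] [Algebra R F] [IsFractionRing R F]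

/-- **The `σ`-package at a closed point.** -/
structure ssl_Sigma (π : R) (σ : F ≃+* F) (σR : R ≃+* R) (O : Subring F) (PO : Set F) : Prop where
  /-- `σR` is the restriction of `σ` to `R` -/
  compat : ∀ r : R, σ (algebraMap R F r) = algebraMap R F (σR r)
  /-- `σ π = ζ π` with `ζ ∈ Rˣ` -/
  pi_assoc : Associated (σR π) π
  /-- the vertical orders are `σ`-invariant -/
  quot : ∀ G : F, G ≠ 0 → σ G / G ∈ O
  /-- `σ ≡ id` on `O` modulo `PO` -/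
  res : ∀ z ∈ O, σ z - z ∈ PO
  /-- `PO` is an `O`-module -/
  absorb : ∀ a ∈ PO, ∀ b ∈ O, a * b ∈ PO
  /-- the vertical primes of height one of `R` have `R_𝔮 ⊇ O` -/
  vert : ∀ 𝔮 : Ideal R, 𝔮.IsPrime → 𝔮.height = 1 → π ∈ 𝔮 → ∀ z ∈ O, ssl_MemAt F 𝔮 z
  /-- `σ ≡ id` modulo `π R` -/
  cong : ∀ r : R, π ∣ σR r - r

variable {π : R} {σ : F ≃+* F} {σR : R ≃+* R} {O : Subring F} {PO : Set F}

namespace ssl_Sigma

variable (hS : ssl_Sigma π σ σR O PO)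
include hS

/-- the inverse of `σ G / G` lies in `O` too. -/
theorem quot_inv {G : F} (hG : G ≠ 0) : (σ G / G)⁻¹ ∈ O := by
  have := hS.quot G⁻¹ (inv_ne_zero hG)
  rwa [map_inv₀, inv_div_inv, ← inv_div] at this

/-- `σ` permutes the horizontal primes. -/
theorem horiz_comap {𝔮 : Ideal R} (h : ssl_Horiz π 𝔮) :
    ssl_Horiz π (𝔮.comap (σR : R →+* R)) := by
  obtain ⟨hp, h1, hπ⟩ := h
  refine ⟨Ideal.comap_isPrime _ 𝔮, ?_, ?_⟩
  · rw [← h1]
    exact RingEquiv.height_comap σR 𝔮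
  · intro hmem
    rw [Ideal.mem_comap] at hmem
    apply hπ
    obtain ⟨u, hu⟩ := hS.pi_assoc
    rw [← hu]
    exact 𝔮.mul_mem_right _ hmem

/-- transport of units along `σ`. -/
theorem unitAt_sigma {𝔮 : Ideal R} {z : F}
    (h : ssl_UnitAt F (𝔮.comap (σR : R →+* R)) z) : ssl_UnitAt F 𝔮 (σ z) := by
  obtain ⟨a, s, ha, hs, hz⟩ := h
  refine ⟨σR a, σR s, ha, hs, ?_⟩
  rw [← hS.compat, ← hS.compat, ← map_mul, hz]

/-- `σ z / z ≡ 1` modulo `PO` for a unit `z` of `O`. -/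
theorem div_sub_one_mem {z : F} (hz0 : z ≠ 0) (hz : z ∈ O) (hzinv : z⁻¹ ∈ O) :
    σ z / z - 1 ∈ PO := by
  have h1 : σ z / z - 1 = (σ z - z) * z⁻¹ := by
    field_simp
  rw [h1]
  exact hS.absorb _ (hS.res z hz) _ hzinv

end ssl_Sigma

/-- **The core**: `σ g / g = ω eᵐ`. -/
theorem ssl_core (hS : ssl_Sigma π σ σR O PO) (m : ℕ) {g : F} (hg : g ≠ 0)
    (hLE : ssl_PowModVert F π m g) :
    ∃ (ω : Rˣ) (e : F), e ≠ 0 ∧ e ∈ O ∧ e⁻¹ ∈ O ∧
      σ g / g = algebraMap R F (ω : R) * e ^ m := by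
  obtain ⟨e₀, he₀, hunit⟩ := hLE
  set g' : F := g / e₀ ^ m with hg'
  have hg'0 : g' ≠ 0 := div_ne_zero hg (pow_ne_zero m he₀)
  have hσg'0 : σ g' ≠ 0 := (map_ne_zero σ).2 hg'0
  have hz0 : σ g' / g' ≠ 0 := div_ne_zero hσg'0 hg'0
  obtain ⟨ω, hω⟩ := ssl_krull_unit (F := F) hz0 (fun 𝔮 h𝔮 h1 => by
    haveI := h𝔮
    by_cases hπ : π ∈ 𝔮
    · rw [ssl_unitAt_iff 𝔮 hz0]
      exact ⟨hS.vert 𝔮 h𝔮 h1 hπ _ (hS.quot g' hg'0), hS.vert 𝔮 h𝔮 h1 hπ _ (hS.quot_inv hg'0)⟩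
    · have hH : ssl_Horiz π 𝔮 := ⟨h𝔮, h1, hπ⟩
      have hH' := hS.horiz_comap hH
      haveI := hH'.1
      exact ssl_unitAt_div 𝔮 (hS.unitAt_sigma (hunit _ hH')) (hunit 𝔮 hH))
  have hσe₀ : σ e₀ ≠ 0 := (map_ne_zero σ).2 he₀
  refine ⟨ω, σ e₀ / e₀, div_ne_zero hσe₀ he₀, hS.quot e₀ he₀, hS.quot_inv he₀, ?_⟩
  rw [hω, hg', map_div₀, map_pow, div_pow]
  have h1 : e₀ ^ m ≠ 0 := pow_ne_zero m he₀
  have h2 : σ e₀ ^ m ≠ 0 := pow_ne_zero m hσe₀
  field_simp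

/-- **(h4a)**: `σ g₁ / g₁ - 1 ∈ PO` for `g₁ = σ g / g`. -/
theorem ssl_h4a (hS : ssl_Sigma π σ σR O PO) {g : F} (hg : g ≠ 0) :
    σ (σ g / g) / (σ g / g) - 1 ∈ PO :=
  hS.div_sub_one_mem (div_ne_zero ((map_ne_zero σ).2 hg) hg) (hS.quot g hg) (hS.quot_inv hg)

/-- **The local factorisation**: `h = (1 + π y) rᵐ`. -/
theorem ssl_factor (hS : ssl_Sigma π σ σR O PO) (m : ℕ) {g : F} (hg : g ≠ 0)
    (hLE : ssl_PowModVert F π m g) :
    ∃ (y : R) (r : F), σ (σ g / g) / (σ g / g) =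
        (1 + algebraMap R F π * algebraMap R F y) * r ^ m ∧ r - 1 ∈ PO := by
  obtain ⟨ω, e, he0, heO, heinv, hge⟩ := ssl_core hS m hg hLE
  obtain ⟨y₀, hy₀⟩ := hS.cong (ω : R)
  refine ⟨y₀ * ((ω⁻¹ : Rˣ) : R), σ e / e, ?_, hS.div_sub_one_mem he0 heO heinv⟩
  have hω0 : algebraMap R F (ω : R) ≠ 0 := ssl_algebraMap_ne_zero ω.ne_zero
  have hωinv : algebraMap R F ((ω⁻¹ : Rˣ) : R) = (algebraMap R F (ω : R))⁻¹ := by
    have h1 : algebraMap R F (ω : R) * algebraMap R F ((ω⁻¹ : Rˣ) : R) = 1 := by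
      rw [← map_mul, ← Units.val_mul, mul_inv_cancel, Units.val_one, map_one]
    exact eq_inv_of_mul_eq_one_right h1
  have hσω : algebraMap R F (σR (ω : R)) =
      algebraMap R F (ω : R) + algebraMap R F π * algebraMap R F y₀ := by
    rw [← map_mul, ← map_add, ← hy₀]
    congr 1
    ring
  have hσe0 : σ e ≠ 0 := (map_ne_zero σ).2 he0
  rw [hge, map_mul, map_pow, hS.compat, hσω, map_mul, hωinv, div_pow]
  have h1 : e ^ m ≠ 0 := pow_ne_zero m he0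
  field_simp

end Core

end Fermat.Agent.SS
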