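/-
Project SS (S34), cell [L] (helper10): THE LOCAL FACTORISATION AT A CLOSED POINT OF A CHART
(prefix `ssl_`).

`B ⊆ F0` an `A0`-subalgebra (a chart of the model; kept ABSTRACT), noetherian and integrally closed
with fraction field `F0`; `ϖ` the image of `π ∈ A0`; `𝔫` a prime of `B` containing `ϖ`;
`R := B_𝔫 = ssl_locSub F0 𝔫`.  `σ` an automorphism of `F0` which is trivial modulo `ϖ` on `B` and
whose inverse preserves `B`, `σ ϖ = ϖ e` with `e ∈ A0ˣ`; `O`, `PO` as in `ssl_Sigma`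
(`sfc_O`, `sfc_piO` of the overlap chart) with `O ⊆ S⁻¹ B`, `S = sfc_S B ϖ`.

* `ssl_sigmaR`        : the automorphism of `R` induced by `σ`;
* `ssl_point_sigma`   : the `σ`-package `ssl_Sigma` for `R`;
* `ssl_point`         : if `g` is an `m`-th power modulo vertical divisors on `Spec R` then
                        `h = σ(σ g / g)/(σ g / g) = (1 + ϖ y) rᵐ` with `s y ∈ B` for some `s ∉ 𝔫` and
                        `r - 1 ∈ PO`     (= `ss_LocAt` at the point `𝔫`).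
-/
import Mathlib
import Fermat.Agent.SS.SFC.Gauss
import Fermat.Agent.SS.Local.Core

set_option autoImplicit false
set_option linter.unusedSectionVars false
set_option linter.style.haveILetI false
set_option linter.unusedVariables false

namespace Fermat.Agent.SS

universe v

section NZD

/-- a non-zero-divisor modulo `ϖ` lies in no minimal prime over `(ϖ)`. -/
theorem ssl_not_mem_of_nzd {S : Type*} [CommRing S] {ϖ s : S} {𝔭 : Ideal S}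
    (h𝔭 : 𝔭 ∈ (Ideal.span {ϖ}).minimalPrimes) (hs : ∀ b : S, ϖ ∣ s * b → ϖ ∣ b) : s ∉ 𝔭 := by
  intro hmem
  obtain ⟨y, hy, hsy⟩ := Ideal.exists_mul_mem_of_mem_minimalPrimes h𝔭 hmem
  rw [Ideal.mem_span_singleton] at hy hsy
  exact hy (hs y hsy)

/-- in a domain a prime of height one containing `ϖ ≠ 0` is minimal over `(ϖ)`. -/
theorem ssl_mem_minimalPrimes {S : Type*} [CommRing S] [IsDomain S] {ϖ : S} (hϖ : ϖ ≠ 0)
    {𝔭 : Ideal S} [h𝔭 : 𝔭.IsPrime] (h1 : 𝔭.height = 1) (hmem : ϖ ∈ 𝔭) :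
    𝔭 ∈ (Ideal.span {ϖ}).minimalPrimes := by
  refine ⟨⟨h𝔭, ?_⟩, ?_⟩
  · rw [Ideal.span_le, Set.singleton_subset_iff]; exact hmem
  · rintro p ⟨hp, hple⟩ hp𝔭
    have hp0 : p ≠ ⊥ := by
      rintro rfl
      have : ϖ ∈ (⊥ : Ideal S) := hple (Ideal.mem_span_singleton_self _)
      exact hϖ ((Ideal.mem_bot).1 this)
    haveI := hp
    exact (ssl_eq_of_le_of_ne_bot hp0 h1 hp𝔭).ge

end NZD

section Point

variable {A0 : Type*} [CommRing A0] {F0 : Type v} [Field F0] [Algebra A0 F0]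
variable {B : Subalgebra A0 F0} [IsFractionRing B F0] [IsNoetherianRing B] [IsIntegrallyClosed B]
variable (𝔫 : Ideal B) [h𝔫 : 𝔫.IsPrime]

theorem ssl_loc_isNoetherianRing : IsNoetherianRing (ssl_locSub F0 𝔫) :=
  IsLocalization.isNoetherianRing 𝔫.primeCompl _ inferInstance

theorem ssl_loc_isIntegrallyClosed : IsIntegrallyClosed (ssl_locSub F0 𝔫) :=
  isIntegrallyClosed_of_isLocalization _ 𝔫.primeCompl 𝔫.primeCompl_le_nonZeroDivisors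

theorem ssl_loc_isLocalRing : IsLocalRing (ssl_locSub F0 𝔫) :=
  IsLocalization.AtPrime.isLocalRing _ 𝔫

/-- elements of `R = B_𝔫` -/
theorem ssl_mem_loc {z : F0} :
    z ∈ ssl_locSub F0 𝔫 ↔ ∃ a s : B, s ∉ 𝔫 ∧ z * (s : F0) = (a : F0) :=
  ssl_mem_locSub 𝔫 z

variable {π : A0} (σ : F0 ≃+* F0)

/-- the hypotheses on `σ` relative to the chart `B`. -/
structure ssl_SigmaB (π : A0) (σ : F0 ≃+* F0) (B : Subalgebra A0 F0) : Prop where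
  /-- `σ ≡ id` modulo `ϖ B` -/
  triv : ∀ b ∈ B, ∃ c ∈ B, σ b - b = algebraMap A0 F0 π * c
  /-- `σ⁻¹` preserves `B` -/
  symm_mem : ∀ b ∈ B, σ.symm b ∈ B
  /-- `σ ϖ = ϖ e`, `e ∈ A0ˣ` -/
  pi : ∃ e : A0ˣ, σ (algebraMap A0 F0 π) = algebraMap A0 F0 π * algebraMap A0 F0 (e : A0)

variable {σ}

namespace ssl_SigmaB

variable (hσ : ssl_SigmaB π σ B)
include hσ

theorem mem {b : F0} (hb : b ∈ B) : σ b ∈ B := by
  obtain ⟨c, hc, h⟩ := hσ.triv b hb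
  have : σ b = b + algebraMap A0 F0 π * c := by rw [← h]; ring
  rw [this]
  exact add_mem hb (mul_mem (Subalgebra.algebraMap_mem _ π) hc)

/-- `σ⁻¹ ≡ id` modulo `ϖ B` -/
theorem symm_triv {b : F0} (hb : b ∈ B) : ∃ c ∈ B, σ.symm b - b = algebraMap A0 F0 π * c := by
  obtain ⟨c, hc, h⟩ := hσ.triv _ (hσ.symm_mem b hb)
  rw [RingEquiv.apply_symm_apply] at h
  exact ⟨-c, neg_mem hc, by rw [mul_neg, ← h]; ring⟩

/-- `σ` preserves the complement of a prime containing `ϖ`. -/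
theorem not_mem (hπ𝔫 : algebraMap A0 B π ∈ 𝔫) {b : B} (hb : b ∉ 𝔫) :
    (⟨σ (b : F0), hσ.mem b.2⟩ : B) ∉ 𝔫 := by
  intro h
  apply hb
  obtain ⟨c, hc, hbc⟩ := hσ.triv _ b.2
  have : b = ⟨σ (b : F0), hσ.mem b.2⟩ - algebraMap A0 B π * ⟨c, hc⟩ := by
    apply Subtype.ext
    show (b : F0) = σ (b : F0) - algebraMap A0 F0 π * c
    rw [← hbc]; ring
  rw [this]
  exact 𝔫.sub_mem h (𝔫.mul_mem_right _ hπ𝔫)

theorem symm_not_mem (hπ𝔫 : algebraMap A0 B π ∈ 𝔫) {b : B} (hb : b ∉ 𝔫) :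
    (⟨σ.symm (b : F0), hσ.symm_mem _ b.2⟩ : B) ∉ 𝔫 := by
  intro h
  apply hb
  obtain ⟨c, hc, hbc⟩ := hσ.symm_triv b.2
  have : b = ⟨σ.symm (b : F0), hσ.symm_mem _ b.2⟩ - algebraMap A0 B π * ⟨c, hc⟩ := by
    apply Subtype.ext
    show (b : F0) = σ.symm (b : F0) - algebraMap A0 F0 π * c
    rw [← hbc]; ring
  rw [this]
  exact 𝔫.sub_mem h (𝔫.mul_mem_right _ hπ𝔫)

/-- `σ` preserves `R = B_𝔫`. -/
theorem loc_mem (hπ𝔫 : algebraMap A0 B π ∈ 𝔫) {z : F0} (hz : z ∈ ssl_locSub F0 𝔫) :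
    σ z ∈ ssl_locSub F0 𝔫 := by
  obtain ⟨a, s, hs, h⟩ := (ssl_mem_loc 𝔫).1 hz
  refine (ssl_mem_loc 𝔫).2 ⟨⟨σ (a : F0), hσ.mem a.2⟩, ⟨σ (s : F0), hσ.mem s.2⟩,
    hσ.not_mem 𝔫 hπ𝔫 hs, ?_⟩
  show σ z * σ (s : F0) = σ (a : F0)
  rw [← map_mul, h]

theorem loc_symm_mem (hπ𝔫 : algebraMap A0 B π ∈ 𝔫) {z : F0} (hz : z ∈ ssl_locSub F0 𝔫) :
    σ.symm z ∈ ssl_locSub F0 𝔫 := by
  obtain ⟨a, s, hs, h⟩ := (ssl_mem_loc 𝔫).1 hz
  refine (ssl_mem_loc 𝔫).2 ⟨⟨σ.symm (a : F0), hσ.symm_mem _ a.2⟩,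
    ⟨σ.symm (s : F0), hσ.symm_mem _ s.2⟩, hσ.symm_not_mem 𝔫 hπ𝔫 hs, ?_⟩
  show σ.symm z * σ.symm (s : F0) = σ.symm (a : F0)
  rw [← map_mul, h]

end ssl_SigmaB

/-- **the automorphism of `R = B_𝔫` induced by `σ`.** -/
noncomputable def ssl_sigmaR (hσ : ssl_SigmaB π σ B) (hπ𝔫 : algebraMap A0 B π ∈ 𝔫) :
    ssl_locSub F0 𝔫 ≃+* ssl_locSub F0 𝔫 where
  toFun z := ⟨σ (z : F0), hσ.loc_mem 𝔫 hπ𝔫 z.2⟩
  invFun z := ⟨σ.symm (z : F0), hσ.loc_symm_mem 𝔫 hπ𝔫 z.2⟩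
  left_inv z := Subtype.ext (σ.symm_apply_apply _)
  right_inv z := Subtype.ext (σ.apply_symm_apply _)
  map_mul' a b := Subtype.ext (map_mul σ _ _)
  map_add' a b := Subtype.ext (map_add σ _ _)

theorem ssl_sigmaR_coe (hσ : ssl_SigmaB π σ B) (hπ𝔫 : algebraMap A0 B π ∈ 𝔫)
    (z : ssl_locSub F0 𝔫) : ((ssl_sigmaR 𝔫 hσ hπ𝔫 z : ssl_locSub F0 𝔫) : F0) = σ (z : F0) := rfl

section Package

variable (hσ : ssl_SigmaB π σ B) (hπ𝔫 : algebraMap A0 B π ∈ 𝔫)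

/-- `σ ≡ id` modulo `ϖ R`. -/
theorem ssl_point_cong (r : ssl_locSub F0 𝔫) :
    algebraMap B (ssl_locSub F0 𝔫) (algebraMap A0 B π) ∣ ssl_sigmaR 𝔫 hσ hπ𝔫 r - r := by
  obtain ⟨a, s, hs, h⟩ := (ssl_mem_loc 𝔫).1 r.2
  obtain ⟨ca, hca, ha⟩ := hσ.triv _ a.2
  obtain ⟨cs, hcs, hsσ⟩ := hσ.triv _ s.2
  have hs0 : (s : F0) ≠ 0 := by
    intro h0
    apply hs
    have : s = 0 := Subtype.ext h0
    rw [this]; exact 𝔫.zero_mem
  have hσs0 : σ (s : F0) ≠ 0 := (map_ne_zero σ).2 hs0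
  -- the quotient `y = (c_a s - a c_s) / (s σ s)`
  set y : F0 := (ca * (s : F0) - (a : F0) * cs) * ((s : F0) * σ (s : F0))⁻¹ with hy
  have hyR : y ∈ ssl_locSub F0 𝔫 := by
    refine (ssl_mem_loc 𝔫).2 ⟨⟨ca, hca⟩ * s - a * ⟨cs, hcs⟩, s * ⟨σ (s : F0), hσ.mem s.2⟩,
      fun hm => (h𝔫.mem_or_mem hm).elim hs (hσ.not_mem 𝔫 hπ𝔫 hs), ?_⟩
    show y * ((s : F0) * σ (s : F0)) = ca * (s : F0) - (a : F0) * cs
    rw [hy]
    field_simp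
  refine ⟨⟨y, hyR⟩, Subtype.ext ?_⟩
  show σ (r : F0) - (r : F0) = algebraMap A0 F0 π * y
  have hr : (r : F0) = (a : F0) * ((s : F0))⁻¹ := by
    rw [← h]; field_simp
  have hσa : σ (a : F0) = (a : F0) + algebraMap A0 F0 π * ca := by rw [← ha]; ring
  have hσs : σ (s : F0) = (s : F0) + algebraMap A0 F0 π * cs := by rw [← hsσ]; ring
  rw [hr, map_mul, map_inv₀, hy]
  have hσs0' : (s : F0) + algebraMap A0 F0 π * cs ≠ 0 := by rw [← hσs]; exact hσs0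
  rw [hσa, hσs]
  field_simp
  ring

variable (hϖ0 : algebraMap A0 F0 π ≠ 0) (O : Subring F0) (PO : Set F0)
  (hOB : ∀ z ∈ O, ∃ s ∈ sfc_S B.toSubring (algebraMap A0 F0 π), s * z ∈ B)

include hϖ0 hOB in
/-- the vertical primes of height one of `R` have `R_𝔮 ⊇ O`. -/
theorem ssl_point_vert (𝔮 : Ideal (ssl_locSub F0 𝔫)) (h𝔮 : 𝔮.IsPrime) (h1 : 𝔮.height = 1)
    (hπ𝔮 : algebraMap B (ssl_locSub F0 𝔫) (algebraMap A0 B π) ∈ 𝔮) (z : F0) (hz : z ∈ O) :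
    ssl_MemAt F0 𝔮 z := by
  set 𝔮₁ : Ideal B := 𝔮.under B with h𝔮₁
  haveI : 𝔮₁.IsPrime := Ideal.comap_isPrime _ 𝔮
  have h1' : 𝔮₁.height = 1 := by
    rw [h𝔮₁, IsLocalization.height_under 𝔫.primeCompl 𝔮, h1]
  have hπ𝔮₁ : algebraMap A0 B π ∈ 𝔮₁ := hπ𝔮
  have hϖB : algebraMap A0 B π ≠ 0 := by
    intro h0
    apply hϖ0
    have := congrArg (fun t : B => (t : F0)) h0
    simpa using this
  have hmin := ssl_mem_minimalPrimes hϖB h1' hπ𝔮₁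
  obtain ⟨s, hs, hsz⟩ := hOB z hz
  -- `s ∉ 𝔮₁`
  have hs𝔮 : (⟨s, hs.1⟩ : B) ∉ 𝔮₁ := by
    refine ssl_not_mem_of_nzd hmin fun b hdvd => ?_
    obtain ⟨c, hc⟩ := hdvd
    obtain ⟨c', hc', hbc⟩ := hs.2.2 (b : F0) b.2 ⟨(c : F0), c.2, by
      have := congrArg (fun t : B => (t : F0)) hc
      simpa using this⟩
    exact ⟨⟨c', hc'⟩, Subtype.ext (by simpa using hbc)⟩
  refine ⟨algebraMap B (ssl_locSub F0 𝔫) ⟨s * z, hsz⟩, algebraMap B (ssl_locSub F0 𝔫) ⟨s, hs.1⟩,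
    hs𝔮, ?_⟩
  show z * s = s * z
  ring

variable (hquot : ∀ G : F0, G ≠ 0 → σ G / G ∈ O) (hres : ∀ z ∈ O, σ z - z ∈ PO)
  (habs : ∀ a ∈ PO, ∀ b ∈ O, a * b ∈ PO)

include hϖ0 hOB hquot hres habs in
/-- **the `σ`-package of the local ring `R = B_𝔫`.** -/
theorem ssl_point_sigma :
    ssl_Sigma (algebraMap B (ssl_locSub F0 𝔫) (algebraMap A0 B π)) σ (ssl_sigmaR 𝔫 hσ hπ𝔫) O PO where
  compat r := rfl
  pi_assoc := by
    obtain ⟨e, he⟩ := hσ.pi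
    have hu : IsUnit (algebraMap B (ssl_locSub F0 𝔫) (algebraMap A0 B (e : A0))) :=
      (e.isUnit.map (algebraMap A0 B)).map (algebraMap B (ssl_locSub F0 𝔫))
    obtain ⟨u, hu'⟩ := hu
    refine Associated.symm ⟨u, ?_⟩
    rw [hu']
    apply Subtype.ext
    show algebraMap A0 F0 π * algebraMap A0 F0 (e : A0) = σ (algebraMap A0 F0 π)
    rw [he]
  quot := hquot
  res := hres
  absorb := habs
  vert := fun 𝔮 h𝔮 h1 hπ𝔮 z hz => ssl_point_vert 𝔫 hϖ0 O hOB 𝔮 h𝔮 h1 hπ𝔮 z hz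
  cong := ssl_point_cong 𝔫 hσ hπ𝔫

include hσ hπ𝔫 hϖ0 hOB hquot hres habs in
/-- **THE LOCAL FACTORISATION AT THE POINT `𝔫`.** -/
theorem ssl_point (m : ℕ) {g : F0} (hg : g ≠ 0)
    (hLE : ssl_PowModVert F0 (algebraMap B (ssl_locSub F0 𝔫) (algebraMap A0 B π)) m g) :
    ∃ (r y : F0) (s : B), s ∉ 𝔫 ∧ (s : F0) * y ∈ B ∧
      σ (σ g / g) / (σ g / g) = (1 + algebraMap A0 F0 π * y) * r ^ m ∧ r - 1 ∈ PO := by
  haveI := ssl_loc_isNoetherianRing 𝔫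
  haveI := ssl_loc_isIntegrallyClosed 𝔫
  obtain ⟨y, r, hh, hr⟩ := ssl_factor
    (ssl_point_sigma 𝔫 hσ hπ𝔫 hϖ0 O PO hOB hquot hres habs) m hg hLE
  obtain ⟨a, s, hs, hys⟩ := (ssl_mem_loc 𝔫).1 y.2
  refine ⟨r, (y : F0), s, hs, ?_, hh, hr⟩
  rw [mul_comm, hys]
  exact a.2

end Package

end Point

end Fermat.Agent.SS
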