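/-
Project SS (S34), cell [L] (helper10): FROM LOCAL EQUATIONS TO "`m`-TH POWER MODULO VERTICAL
DIVISORS" (prefix `ssl_`).

`R` a noetherian integrally closed domain with fraction field `F`, `π ∈ R`, `g ∈ Fˣ`.  Suppose
* `hdiv` : at every horizontal prime `𝔮` (height one, `π ∉ 𝔮`) `g` is a unit of `R_𝔮` times an
  `m`-th power (`m ∣ ord_𝔮 g`), and
* `hPE`  : every horizontal prime at which `g` is not a unit has a local equation modulo vertical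
  divisors (`ssl_LocEq`).
Then `g` is an `m`-th power modulo vertical divisors (`ssl_PowModVert`): with
`e₀ := ∏_𝔮 t_𝔮 ^ (ord_𝔮 g / m)` the quotient `g / e₀ᵐ` is a unit at every horizontal prime.
-/
import Mathlib
import Fermat.Agent.SS.Local.Height1

set_option autoImplicit false
set_option linter.unusedSectionVars false
set_option linter.style.haveILetI false

namespace Fermat.Agent.SS

section Equations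

variable {R : Type*} [CommRing R] [IsDomain R] [IsNoetherianRing R] [IsIntegrallyClosed R]
  {F : Type*} [Field F] [Algebra R F] [IsFractionRing R F]

/-- a local equation is nonzero. -/
theorem ssl_locEq_ne_zero {π : R} {𝔮 : Ideal R} (h𝔮 : ssl_Horiz π 𝔮) {t : R}
    (ht : ssl_LocEq π 𝔮 t) : t ≠ 0 := by
  rintro rfl
  have h𝔮0 : 𝔮 ≠ ⊥ := Ideal.ne_bot_of_height_eq_one h𝔮.2.1
  obtain ⟨z, hz, hz0⟩ := Submodule.exists_mem_ne_zero_of_ne_bot h𝔮0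
  obtain ⟨s, hs, hdvd⟩ := ht.2.1 z hz
  have hs0 : s ≠ 0 := fun h0 => hs (h0 ▸ 𝔮.zero_mem)
  exact mul_ne_zero hs0 hz0 (zero_dvd_iff.1 hdvd)

/-- a local equation of `𝔮` is a unit at every other horizontal prime. -/
theorem ssl_locEq_unitAt {π : R} {𝔮 𝔮' : Ideal R} {t : R} (ht : ssl_LocEq π 𝔮 t)
    (h𝔮' : ssl_Horiz π 𝔮') (hne : 𝔮' ≠ 𝔮) : ssl_UnitAt F 𝔮' (algebraMap R F t) := by
  haveI := h𝔮'.1
  exact ssl_unitAt_algebraMap 𝔮' fun hmem => hne (ht.2.2 𝔮' h𝔮' hmem)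

/-- **From local equations to an `m`-th power modulo vertical divisors.** -/
theorem ssl_powModVert_of_locEq {π : R} (m : ℕ) {g : F} (hg : g ≠ 0)
    (hdiv : ∀ 𝔮 : Ideal R, ssl_Horiz π 𝔮 → ∃ G : F, G ≠ 0 ∧ ssl_UnitAt F 𝔮 (g / G ^ m))
    (hPE : ∀ 𝔮 : Ideal R, ssl_Horiz π 𝔮 → ¬ ssl_UnitAt F 𝔮 g → ∃ t : R, ssl_LocEq π 𝔮 t) :
    ssl_PowModVert F π m g := by
  classical
  -- the finite set of bad horizontal primes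
  have hfin : {𝔮 : Ideal R | ssl_Horiz π 𝔮 ∧ ¬ ssl_UnitAt F 𝔮 g}.Finite :=
    (ssl_finite_support (R := R) hg).subset fun 𝔮 h => ⟨h.1.1, h.1.2.1, h.2⟩
  set Q : Finset (Ideal R) := hfin.toFinset with hQ
  have hmemQ : ∀ 𝔮 : Ideal R, 𝔮 ∈ Q ↔ ssl_Horiz π 𝔮 ∧ ¬ ssl_UnitAt F 𝔮 g := fun 𝔮 => by
    rw [hQ, Set.Finite.mem_toFinset]; rfl
  -- local equations and orders
  have hex : ∀ 𝔮 : Ideal R, 𝔮 ∈ Q → ∃ (t : R) (n : ℤ), ssl_LocEq π 𝔮 t ∧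
      ssl_UnitAt F 𝔮 (g / (algebraMap R F t ^ n) ^ m) := by
    intro 𝔮 h𝔮Q
    obtain ⟨hH, hnu⟩ := (hmemQ 𝔮).1 h𝔮Q
    haveI := hH.1
    obtain ⟨t, ht⟩ := hPE 𝔮 hH hnu
    obtain ⟨G, hG0, hG⟩ := hdiv 𝔮 hH
    obtain ⟨n, hn⟩ := ssl_exists_zpow (F := F) 𝔮 hH.2.1 ht.1 ht.2.1 hG0
    refine ⟨t, n, ht, ?_⟩
    have htF : algebraMap R F t ≠ 0 := ssl_algebraMap_ne_zero (ssl_locEq_ne_zero hH ht)
    have h1 : g / (algebraMap R F t ^ n) ^ m = (g / G ^ m) * (G / algebraMap R F t ^ n) ^ m := by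
      have h2 : algebraMap R F t ^ n ≠ 0 := zpow_ne_zero n htF
      rw [div_pow]
      field_simp
    rw [h1]
    exact ssl_unitAt_mul 𝔮 hG (ssl_unitAt_pow 𝔮 hn m)
  choose! T Nn hTN using hex
  set e₀ : F := ∏ 𝔮 ∈ Q, algebraMap R F (T 𝔮) ^ Nn 𝔮 with he₀
  have hfac0 : ∀ 𝔮 ∈ Q, algebraMap R F (T 𝔮) ^ Nn 𝔮 ≠ 0 := fun 𝔮 h𝔮 =>
    zpow_ne_zero _ (ssl_algebraMap_ne_zero
      (ssl_locEq_ne_zero ((hmemQ 𝔮).1 h𝔮).1 (hTN 𝔮 h𝔮).1))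
  have he₀0 : e₀ ≠ 0 := Finset.prod_ne_zero_iff.2 hfac0
  refine ⟨e₀, he₀0, fun 𝔮' hH' => ?_⟩
  haveI := hH'.1
  -- the factors away from `𝔮'` are units at `𝔮'`
  have hother : ∀ 𝔮 ∈ Q, 𝔮 ≠ 𝔮' → ssl_UnitAt F 𝔮' (algebraMap R F (T 𝔮) ^ Nn 𝔮) := by
    intro 𝔮 h𝔮 hne
    exact ssl_unitAt_zpow 𝔮' (ssl_locEq_unitAt (hTN 𝔮 h𝔮).1 hH' (Ne.symm hne)) _
  by_cases hmem : 𝔮' ∈ Q
  · have hsplit : e₀ = algebraMap R F (T 𝔮') ^ Nn 𝔮' *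
        ∏ 𝔮 ∈ Q.erase 𝔮', algebraMap R F (T 𝔮) ^ Nn 𝔮 := by
      rw [he₀]
      exact (Finset.mul_prod_erase Q (fun 𝔮 => algebraMap R F (T 𝔮) ^ Nn 𝔮) hmem).symm
    have hrest : ssl_UnitAt F 𝔮' (∏ 𝔮 ∈ Q.erase 𝔮', algebraMap R F (T 𝔮) ^ Nn 𝔮) :=
      ssl_unitAt_prod 𝔮' _ _ fun 𝔮 h𝔮 =>
        hother 𝔮 (Finset.mem_of_mem_erase h𝔮) (Finset.ne_of_mem_erase h𝔮)
    have h1 : g / e₀ ^ m = (g / (algebraMap R F (T 𝔮') ^ Nn 𝔮') ^ m) *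
        ((∏ 𝔮 ∈ Q.erase 𝔮', algebraMap R F (T 𝔮) ^ Nn 𝔮) ^ m)⁻¹ := by
      rw [hsplit, mul_pow]
      have h2 : (algebraMap R F (T 𝔮') ^ Nn 𝔮') ^ m ≠ 0 := pow_ne_zero m (hfac0 𝔮' hmem)
      have h3 : (∏ 𝔮 ∈ Q.erase 𝔮', algebraMap R F (T 𝔮) ^ Nn 𝔮) ^ m ≠ 0 :=
        pow_ne_zero m (ssl_unitAt_ne_zero 𝔮' hrest)
      field_simp
    rw [h1]
    exact ssl_unitAt_mul 𝔮' (hTN 𝔮' hmem).2 (ssl_unitAt_inv 𝔮' (ssl_unitAt_pow 𝔮' hrest m))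
  · have hgu : ssl_UnitAt F 𝔮' g := by
      by_contra hnu
      exact hmem ((hmemQ 𝔮').2 ⟨hH', hnu⟩)
    have hall : ssl_UnitAt F 𝔮' e₀ :=
      ssl_unitAt_prod 𝔮' _ _ fun 𝔮 h𝔮 => hother 𝔮 h𝔮 fun h => hmem (h ▸ h𝔮)
    exact ssl_unitAt_div 𝔮' hgu (ssl_unitAt_pow 𝔮' hall m)

end Equations

end Fermat.Agent.SS
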