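/-
Project SS (S34), cell [L] (helper10): LOCAL EQUATIONS AT A SMOOTH POINT (prefix `ssl_`).

In a factorial domain every prime of height one is principal, generated by a prime element, which
lies in no other prime of height one: `ssl_locEq_of_ufd`.  With `fc_ufd` (a noetherian local domain
with `𝔪 = (π, u)`, `π` prime, is factorial): `ssl_locEq_of_regular`, and the resulting
`ssl_powModVert_of_regular` (the smooth case of the local factorisation: only the divisibility of
the orders is needed, no rationality).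
-/
import Mathlib
import Fermat.Agent.JT3.FCore.LocalUFD
import Fermat.Agent.SS.Local.Equations

set_option autoImplicit false
set_option linter.unusedSectionVars false
set_option linter.style.haveILetI false

namespace Fermat.Agent.SS

open IsLocalRing Fermat.Agent.JT3

section Smooth

variable {R : Type*} [CommRing R] [IsDomain R] [IsNoetherianRing R] [IsIntegrallyClosed R]

/-- in a factorial domain a horizontal prime is generated by a prime element. -/
theorem ssl_locEq_of_ufd [UniqueFactorizationMonoid R] {π : R} {𝔮 : Ideal R}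
    (h𝔮 : ssl_Horiz π 𝔮) : ∃ t : R, ssl_LocEq π 𝔮 t := by
  have h𝔮0 : 𝔮 ≠ ⊥ := Ideal.ne_bot_of_height_eq_one h𝔮.2.1
  obtain ⟨p, hp𝔮, hp⟩ := h𝔮.1.exists_mem_prime_of_ne_bot h𝔮0
  haveI hpp : (Ideal.span {p} : Ideal R).IsPrime := (Ideal.span_singleton_prime hp.ne_zero).2 hp
  have hp0 : (Ideal.span {p} : Ideal R) ≠ ⊥ := by
    rw [Ne, Ideal.span_singleton_eq_bot]; exact hp.ne_zero
  have hle : ∀ 𝔮' : Ideal R, p ∈ 𝔮' → Ideal.span {p} ≤ 𝔮' := fun 𝔮' h => by
    rw [Ideal.span_le, Set.singleton_subset_iff]; exact h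
  have heq : Ideal.span {p} = 𝔮 := ssl_eq_of_le_of_ne_bot hp0 h𝔮.2.1 (hle 𝔮 hp𝔮)
  refine ⟨p, hp𝔮, fun z hz => ⟨1, ?_, ?_⟩, fun 𝔮' h𝔮' hp𝔮' => ?_⟩
  · intro h1
    exact h𝔮.1.ne_top ((Ideal.eq_top_iff_one _).2 h1)
  · rw [one_mul, ← Ideal.mem_span_singleton, heq]; exact hz
  · rw [← heq]
    exact (ssl_eq_of_le_of_ne_bot hp0 h𝔮'.2.1 (hle 𝔮' hp𝔮')).symm

/-- at a regular point with `π` part of a regular system of parameters. -/
theorem ssl_locEq_of_regular [IsLocalRing R] {π u : R} (hπ : Prime π)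
    (hmax : maximalIdeal R = Ideal.span {π, u}) {𝔮 : Ideal R} (h𝔮 : ssl_Horiz π 𝔮) :
    ∃ t : R, ssl_LocEq π 𝔮 t := by
  haveI : UniqueFactorizationMonoid R := fc_ufd hπ hmax
  exact ssl_locEq_of_ufd h𝔮

variable {F : Type*} [Field F] [Algebra R F] [IsFractionRing R F]

/-- **the smooth case**: divisibility of the orders at the horizontal primes ⟹ `m`-th power modulo
vertical divisors. -/
theorem ssl_powModVert_of_regular [IsLocalRing R] {π u : R} (hπ : Prime π)
    (hmax : maximalIdeal R = Ideal.span {π, u}) (m : ℕ) {g : F} (hg : g ≠ 0)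
    (hdiv : ∀ 𝔮 : Ideal R, ssl_Horiz π 𝔮 → ∃ G : F, G ≠ 0 ∧ ssl_UnitAt F 𝔮 (g / G ^ m)) :
    ssl_PowModVert F π m g :=
  ssl_powModVert_of_locEq m hg hdiv fun _ h𝔮 _ => ssl_locEq_of_regular hπ hmax h𝔮

end Smooth

end Fermat.Agent.SS
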