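/-
Project SS (S34), cell [L] (helper10): THE LOCAL FACTORISATION AT A CLOSED POINT OF AN ABSTRACT
CHART, FROM THE PLACES (prefix `ssl_`).

`A0` a discrete valuation ring with uniformiser `π`, `K = Frac A0`, `F0 / K` a field; `B ⊆ F0` an
`A0`-subalgebra (a chart; kept abstract), noetherian, integrally closed, with fraction field `F0`;
`𝔫` a prime of `B` containing `π` at which the special fibre is smooth (`ss_SmoothAt`) or has a
node (`ssl_NodeAt`, the part of `ss_NodeAt` which is used); `σ` as in `ssl_SigmaB`; `O, PO` as in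
`ssl_point`.  For `f ∈ F0ˣ` whose orders at all places of `F0 / K` are divisible by `m` and whose
zeros and poles are `K`-rational:

  `ssl_locAt_point` : `σ²f · f / (σ f)² = (1 + ϖ y) rᵐ`, `y ∈ B_𝔫`, `r - 1 ∈ PO`.
-/
import Mathlib
import Fermat.Agent.SS.CoreModel
import Fermat.Agent.SS.Local.Point
import Fermat.Agent.SS.Local.Places
import Fermat.Agent.SS.Local.Smooth

set_option autoImplicit false
set_option linter.unusedSectionVars false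
set_option linter.style.haveILetI false
set_option linter.unusedVariables false

namespace Fermat.Agent.SS

open Fermat.Agent.JT3 IsLocalRing AlgebraicCurve

universe v

section AbsChart

variable {A0 : Type*} [CommRing A0] {F0 : Type v} [Field F0] [Algebra A0 F0]
variable {B : Subalgebra A0 F0} [IsFractionRing B F0] [IsNoetherianRing B] [IsIntegrallyClosed B]
variable (𝔫 : Ideal B) [h𝔫 : 𝔫.IsPrime] {π : A0}

/-- the part of `ss_NodeAt` used by the local factorisation: `u v = a ∈ A0 ∖ {0}`, `u, v ∈ 𝔫 B_𝔫`,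
`𝔫 B_𝔫 = (ϖ, u, v)`. -/
def ssl_NodeAt (π : A0) (B : Subalgebra A0 F0) (𝔫 : Ideal B) : Prop :=
  ∃ (u v : F0) (a : A0), a ≠ 0 ∧ u * v = algebraMap A0 F0 a ∧
    (∃ s t : B, s ∉ 𝔫 ∧ t ∈ 𝔫 ∧ (s : F0) * u = t) ∧
    (∃ s t : B, s ∉ 𝔫 ∧ t ∈ 𝔫 ∧ (s : F0) * v = t) ∧
    (∀ z ∈ 𝔫, ∃ s c1 c2 c3 : B, s ∉ 𝔫 ∧
      (s : F0) * (z : F0) = algebraMap A0 F0 π * c1 + u * c2 + v * c3)

/-- a unit of `B_𝔫` coming from `B`. -/
theorem ssl_loc_isUnit {s : B} (hs : s ∉ 𝔫) : IsUnit (algebraMap B (ssl_locSub F0 𝔫) s) :=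
  (IsLocalization.AtPrime.isUnit_to_map_iff (ssl_locSub F0 𝔫) 𝔫 s).2 hs

/-- `s r = ϖ d` with `s ∉ 𝔫` ⟹ `ϖ ∣ r` in `B_𝔫`. -/
theorem ssl_loc_dvd_of {r : ssl_locSub F0 𝔫} {s d : B} (hs : s ∉ 𝔫)
    (h : (s : F0) * (r : F0) = algebraMap A0 F0 π * (d : F0)) :
    algebraMap B (ssl_locSub F0 𝔫) (algebraMap A0 B π) ∣ r := by
  have hs0 : (s : F0) ≠ 0 := by
    intro h0
    apply hs
    have : s = 0 := Subtype.ext h0
    rw [this]; exact 𝔫.zero_mem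
  have hc : (d : F0) * ((s : F0))⁻¹ ∈ ssl_locSub F0 𝔫 :=
    (ssl_mem_loc 𝔫).2 ⟨d, s, hs, by field_simp⟩
  refine ⟨⟨_, hc⟩, Subtype.ext ?_⟩
  show (r : F0) = algebraMap A0 F0 π * ((d : F0) * ((s : F0))⁻¹)
  rw [← mul_assoc, ← h]
  field_simp

include h𝔫 in
/-- **local primality of `ϖ` at `𝔫` ⟹ `ϖ` is a prime element of `B_𝔫`.** -/
theorem ssl_loc_prime_of_dom (hϖ0 : algebraMap A0 F0 π ≠ 0) (hπ𝔫 : algebraMap A0 B π ∈ 𝔫)
    (hdom : tq_Dom (algebraMap A0 B π) 𝔫) :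
    Prime (algebraMap B (ssl_locSub F0 𝔫) (algebraMap A0 B π)) := by
  refine ⟨?_, ?_, ?_⟩
  · intro h0
    apply hϖ0
    have := congrArg (fun t : ssl_locSub F0 𝔫 => (t : F0)) h0
    exact this
  · intro hu
    exact ((IsLocalization.AtPrime.isUnit_to_map_iff (ssl_locSub F0 𝔫) 𝔫 _).1 hu) hπ𝔫
  · intro r1 r2 hdvd
    obtain ⟨c, hc⟩ := hdvd
    obtain ⟨a1, s1, hs1, h1⟩ := (ssl_mem_loc 𝔫).1 r1.2
    obtain ⟨a2, s2, hs2, h2⟩ := (ssl_mem_loc 𝔫).1 r2.2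
    obtain ⟨a3, s3, hs3, h3⟩ := (ssl_mem_loc 𝔫).1 c.2
    have hc' : (r1 : F0) * (r2 : F0) = algebraMap A0 F0 π * (c : F0) :=
      congrArg (fun t : ssl_locSub F0 𝔫 => (t : F0)) hc
    have hmem : (a1 * s3) * a2 ∈ Ideal.span {algebraMap A0 B π} := by
      rw [Ideal.mem_span_singleton]
      refine ⟨a3 * s1 * s2, Subtype.ext ?_⟩
      show ((a1 : F0) * (s3 : F0)) * (a2 : F0) =
        algebraMap A0 F0 π * ((a3 : F0) * (s1 : F0) * (s2 : F0))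
      rw [← h1, ← h2, ← h3]
      linear_combination ((s1 : F0) * (s2 : F0) * (s3 : F0)) * hc'
    obtain ⟨s, hs, hcase⟩ := hdom _ _ hmem
    rcases hcase with hcase | hcase
    · left
      obtain ⟨d, hd⟩ := Ideal.mem_span_singleton.1 hcase
      refine ssl_loc_dvd_of 𝔫 (s := s * s3 * s1) (d := d)
        (fun hm => (h𝔫.mem_or_mem hm).elim
          (fun hm' => (h𝔫.mem_or_mem hm').elim hs hs3) hs1) ?_
      have hd' : (s : F0) * ((a1 : F0) * (s3 : F0)) = algebraMap A0 F0 π * (d : F0) :=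
        congrArg (fun t : B => (t : F0)) hd
      show ((s : F0) * (s3 : F0) * (s1 : F0)) * (r1 : F0) = _
      rw [← hd', ← h1]
      ring
    · right
      obtain ⟨d, hd⟩ := Ideal.mem_span_singleton.1 hcase
      refine ssl_loc_dvd_of 𝔫 (s := s * s2) (d := d)
        (fun hm => (h𝔫.mem_or_mem hm).elim hs hs2) ?_
      have hd' : (s : F0) * (a2 : F0) = algebraMap A0 F0 π * (d : F0) :=
        congrArg (fun t : B => (t : F0)) hd
      show ((s : F0) * (s2 : F0)) * (r2 : F0) = _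
      rw [← hd', ← h2]
      ring

/-- `𝔫 B_𝔫 = (ϖ, t)` from `tq_GenBy`. -/
theorem ssl_loc_max_of_genBy {t : B} (hgen : tq_GenBy (algebraMap A0 B π) t 𝔫) :
    haveI := ssl_loc_isLocalRing (F0 := F0) 𝔫
    maximalIdeal (ssl_locSub F0 𝔫) =
      Ideal.span {algebraMap B (ssl_locSub F0 𝔫) (algebraMap A0 B π),
        algebraMap B (ssl_locSub F0 𝔫) t} := by
  haveI := ssl_loc_isLocalRing (F0 := F0) 𝔫
  obtain ⟨hπ𝔫, ht, hgen⟩ := hgen
  rw [← IsLocalization.AtPrime.map_eq_maximalIdeal 𝔫 (ssl_locSub F0 𝔫)]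
  apply le_antisymm
  · rw [Ideal.map_le_iff_le_comap]
    intro z hz
    obtain ⟨s, hs, hsz⟩ := hgen z hz
    have h1 : algebraMap B (ssl_locSub F0 𝔫) (s * z) ∈
        Ideal.span {algebraMap B (ssl_locSub F0 𝔫) (algebraMap A0 B π),
          algebraMap B (ssl_locSub F0 𝔫) t} := by
      have := Ideal.mem_map_of_mem (algebraMap B (ssl_locSub F0 𝔫)) hsz
      rwa [Ideal.map_span, Set.image_pair] at this
    rw [Ideal.mem_comap]
    rw [map_mul] at h1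
    exact (Ideal.unit_mul_mem_iff_mem _ (ssl_loc_isUnit 𝔫 hs)).1 h1
  · rw [Ideal.span_le]
    rintro y (rfl | rfl)
    · exact Ideal.mem_map_of_mem _ hπ𝔫
    · exact Ideal.mem_map_of_mem _ ht

/-- an element `u ∈ F0` with `s u = t`, `s ∉ 𝔫`, lies in `B_𝔫`. -/
theorem ssl_loc_mem_of {u : F0} {s t : B} (hs : s ∉ 𝔫) (h : (s : F0) * u = t) :
    u ∈ ssl_locSub F0 𝔫 :=
  (ssl_mem_loc 𝔫).2 ⟨t, s, hs, by rw [mul_comm]; exact h⟩

/-- ... and in `𝔫 B_𝔫` when `t ∈ 𝔫`. -/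
theorem ssl_loc_mem_map_of {u : F0} {s t : B} (hs : s ∉ 𝔫) (ht : t ∈ 𝔫) (h : (s : F0) * u = t) :
    (⟨u, ssl_loc_mem_of 𝔫 hs h⟩ : ssl_locSub F0 𝔫) ∈
      Ideal.map (algebraMap B (ssl_locSub F0 𝔫)) 𝔫 := by
  have h1 : algebraMap B (ssl_locSub F0 𝔫) s * (⟨u, ssl_loc_mem_of 𝔫 hs h⟩ : ssl_locSub F0 𝔫) =
      algebraMap B (ssl_locSub F0 𝔫) t := Subtype.ext h
  have h2 : algebraMap B (ssl_locSub F0 𝔫) s * (⟨u, ssl_loc_mem_of 𝔫 hs h⟩ : ssl_locSub F0 𝔫) ∈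
      Ideal.map (algebraMap B (ssl_locSub F0 𝔫)) 𝔫 := by
    rw [h1]; exact Ideal.mem_map_of_mem _ ht
  exact (Ideal.unit_mul_mem_iff_mem _ (ssl_loc_isUnit 𝔫 hs)).1 h2

end AbsChart

section Main

variable {A0 : Type*} [CommRing A0] [IsDomain A0] [IsDiscreteValuationRing A0]
  {K : Type*} [Field K] [Algebra A0 K] [IsFractionRing A0 K]
  {F0 : Type v} [Field F0] [Algebra A0 F0] [Algebra K F0] [IsScalarTower A0 K F0]
variable {B : Subalgebra A0 F0} [IsFractionRing B F0] [IsNoetherianRing B] [IsIntegrallyClosed B]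
variable (𝔫 : Ideal B) [h𝔫 : 𝔫.IsPrime] {π : A0} {σ : F0 ≃+* F0}

/-- **`f` is an `m`-th power modulo vertical divisors on `Spec B_𝔫`**, at a smooth point or a node,
from the orders and the rationality of the zeros and poles of `f` at the places of `F0 / K`. -/
theorem ssl_powModVert_point (hπ : Irreducible π) (hπ𝔫 : algebraMap A0 B π ∈ 𝔫)
    (hϖ0 : algebraMap A0 F0 π ≠ 0)
    (hpt : ss_SmoothAt π B 𝔫 ∨ ssl_NodeAt π B 𝔫)
    (m : ℕ) {f : F0} (hf : f ≠ 0) (hord : ∀ P : Place K F0, (m : ℤ) ∣ P.ord f)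
    (hrat : ∀ P : Place K F0, P.ord f ≠ 0 → ss_RatPlace P) :
    ssl_PowModVert F0 (algebraMap B (ssl_locSub F0 𝔫) (algebraMap A0 B π)) m f := by
  haveI := ssl_loc_isNoetherianRing (F0 := F0) 𝔫
  haveI := ssl_loc_isIntegrallyClosed (F0 := F0) 𝔫
  haveI := ssl_loc_isLocalRing (F0 := F0) 𝔫
  have hdiv : ∀ 𝔮 : Ideal (ssl_locSub F0 𝔫),
      ssl_Horiz (algebraMap B (ssl_locSub F0 𝔫) (algebraMap A0 B π)) 𝔮 →
      ∃ G : F0, G ≠ 0 ∧ ssl_UnitAt F0 𝔮 (f / G ^ m) := fun 𝔮 h𝔮 =>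
    ssl_hdiv_of_places (K := K) (R := ssl_locSub F0 𝔫) hπ hf m hord 𝔮 h𝔮
  rcases hpt with ⟨⟨t, ht⟩, hdom⟩ | ⟨u, v, a, ha, huv, ⟨su, tu, hsu, htu, hu⟩, ⟨sv, tv, hsv, htv, hv⟩,
      hgen⟩
  · -- smooth point
    exact ssl_powModVert_of_regular (ssl_loc_prime_of_dom 𝔫 hϖ0 hπ𝔫 hdom)
      (ssl_loc_max_of_genBy 𝔫 ht) m hf hdiv
  · -- node
    set uR : ssl_locSub F0 𝔫 := ⟨u, ssl_loc_mem_of 𝔫 hsu hu⟩ with huR
    set vR : ssl_locSub F0 𝔫 := ⟨v, ssl_loc_mem_of 𝔫 hsv hv⟩ with hvR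
    have huvR : uR * vR = algebraMap A0 (ssl_locSub F0 𝔫) a := Subtype.ext huv
    have hmax : maximalIdeal (ssl_locSub F0 𝔫) =
        Ideal.span {algebraMap A0 (ssl_locSub F0 𝔫) π, uR, vR} := by
      rw [← IsLocalization.AtPrime.map_eq_maximalIdeal 𝔫 (ssl_locSub F0 𝔫)]
      apply le_antisymm
      · rw [Ideal.map_le_iff_le_comap]
        intro z hz
        obtain ⟨s, c1, c2, c3, hs, hsz⟩ := hgen z hz
        have h1 : algebraMap B (ssl_locSub F0 𝔫) s * algebraMap B (ssl_locSub F0 𝔫) z =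
            algebraMap A0 (ssl_locSub F0 𝔫) π * algebraMap B (ssl_locSub F0 𝔫) c1 +
              uR * algebraMap B (ssl_locSub F0 𝔫) c2 + vR * algebraMap B (ssl_locSub F0 𝔫) c3 :=
          Subtype.ext hsz
        have h2 : algebraMap B (ssl_locSub F0 𝔫) s * algebraMap B (ssl_locSub F0 𝔫) z ∈
            Ideal.span {algebraMap A0 (ssl_locSub F0 𝔫) π, uR, vR} := by
          rw [h1]
          refine Ideal.add_mem _ (Ideal.add_mem _ ?_ ?_) ?_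
          · exact Ideal.mul_mem_right _ _ (Ideal.subset_span (by simp))
          · exact Ideal.mul_mem_right _ _ (Ideal.subset_span (by simp))
          · exact Ideal.mul_mem_right _ _ (Ideal.subset_span (by simp))
        rw [Ideal.mem_comap]
        exact (Ideal.unit_mul_mem_iff_mem _ (ssl_loc_isUnit 𝔫 hs)).1 h2
      · rw [Ideal.span_le]
        rintro y (rfl | rfl | rfl)
        · exact Ideal.mem_map_of_mem _ hπ𝔫
        · exact ssl_loc_mem_map_of 𝔫 hsu htu hu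
        · exact ssl_loc_mem_map_of 𝔫 hsv htv hv
    refine ssl_powModVert_of_locEq m hf hdiv fun 𝔮 h𝔮 hnu => ?_
    exact ssl_node_locEq (L := K) (F := F0) hπ ha huvR hmax 𝔮 h𝔮
      (ssl_hrat_of_places (K := K) (R := ssl_locSub F0 𝔫) hπ hf hrat 𝔮 h𝔮 hnu)

/-- **THE LOCAL FACTORISATION AT A CLOSED POINT OF THE SPECIAL FIBRE OF THE CHART `B`**, from the
places of `F0 / K`. -/
theorem ssl_locAt_point (hπ : Irreducible π) (hσ : ssl_SigmaB π σ B)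
    (hπ𝔫 : algebraMap A0 B π ∈ 𝔫) (hϖ0 : algebraMap A0 F0 π ≠ 0) (O : Subring F0) (PO : Set F0)
    (hOB : ∀ z ∈ O, ∃ s ∈ sfc_S B.toSubring (algebraMap A0 F0 π), s * z ∈ B)
    (hquot : ∀ G : F0, G ≠ 0 → σ G / G ∈ O) (hres : ∀ z ∈ O, σ z - z ∈ PO)
    (habs : ∀ a ∈ PO, ∀ b ∈ O, a * b ∈ PO)
    (hpt : ss_SmoothAt π B 𝔫 ∨ ssl_NodeAt π B 𝔫)
    (m : ℕ) {f : F0} (hf : f ≠ 0) (hord : ∀ P : Place K F0, (m : ℤ) ∣ P.ord f)
    (hrat : ∀ P : Place K F0, P.ord f ≠ 0 → ss_RatPlace P) :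
    ∃ (r y : F0) (s : B), s ∉ 𝔫 ∧ (s : F0) * y ∈ B ∧
      σ (σ f) * f * ((σ f) ^ 2)⁻¹ = (1 + algebraMap A0 F0 π * y) * r ^ m ∧ r - 1 ∈ PO := by
  obtain ⟨r, y, s, hs, hsy, hh, hr⟩ := ssl_point 𝔫 hσ hπ𝔫 hϖ0 O PO hOB hquot hres habs m hf
    (ssl_powModVert_point (K := K) 𝔫 hπ hπ𝔫 hϖ0 hpt m hf hord hrat)
  refine ⟨r, y, s, hs, hsy, ?_, hr⟩
  rw [← hh]
  have hσf : σ f ≠ 0 := (map_ne_zero σ).2 hf
  have hσσf : σ (σ f) ≠ 0 := (map_ne_zero σ).2 hσf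
  rw [map_div₀]
  field_simp

end Main

end Fermat.Agent.SS
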