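/-
Project SS (S34), cell [L] (helper10): THE LOCAL FACTORISATIONS `ss_LocAt` ON BOTH CHARTS OF AN
`ss_Model` (prefix `ssl_`) — the hypothesis `hloc` of `ss_coreAt_of_model` (`SS/CoreInst.lean`).

`A0` a discrete valuation ring with uniformiser `π`, `K = Frac A0`, `F0 / K` a field,
`M : ss_Model π x σ σ0 P1 P2`.  For `f ∈ F0ˣ` whose orders at all places of `F0 / K` are divisible
by `m` and whose zeros and poles are `K`-rational, `h := σ²f · f / (σ f)²` has the local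
factorisation `h = (1 + ϖ y) rᵐ`, `y ∈ B_𝔫`, `r ≡ 1 mod ϖ O`, at every closed point `𝔫` of the special
fibre of the charts `B₁ = fc_chart A0 {x}` and `B₂ = fc_chart A0 {x⁻¹}`:

* `ssl_locAt`          : from `M` and the algebraicity / finiteness of the second chart
                         (`hAlg2`, `hfin2`: the twins of `M.isAlg`, `M.hfin1` for `x⁻¹`);
* `ssl_locAt_funField` : the same in the function-field situation (`x` transcendental over `K`,
                         `F0 / K(x)` finite, `char K = 0`), where `hAlg2`, `hfin2` are automatic.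
-/
import Mathlib
import Fermat.Agent.SS.CoreAssembly
import Fermat.Agent.SS.Local.Chart
import Fermat.Agent.JT3.FCore.FunField

set_option autoImplicit false
set_option linter.unusedSectionVars false
set_option linter.style.haveILetI false
set_option linter.unusedVariables false

namespace Fermat.Agent.SS

open Fermat.Agent.JT3 IsLocalRing AlgebraicCurve IntermediateField

universe v

section ChartFacts

variable {A0 : Type*} [CommRing A0] {F0 : Type v} [Field F0] [Algebra A0 F0]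

/-- a chart is integrally closed. -/
theorem ssl_chart_isIntegrallyClosed (S : Set F0) [IsFractionRing (fc_chart A0 S) F0] :
    IsIntegrallyClosed (fc_chart A0 S) := by
  refine (isIntegrallyClosed_iff F0).2 fun {z} hz => ?_
  have hz' : IsIntegral (integralClosure (Algebra.adjoin A0 S) F0) z := hz
  have h1 : IsIntegral (Algebra.adjoin A0 S) z :=
    isIntegral_trans (R := Algebra.adjoin A0 S) (A := integralClosure (Algebra.adjoin A0 S) F0) z hz'
  exact ⟨⟨z, h1⟩, rfl⟩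

/-- a ring automorphism of `F0` which is semilinear over `A0` and fixes the coordinates preserves
the chart. -/
theorem ssl_chart_map_mem (τ : F0 ≃+* F0) (τ0 : A0 → A0)
    (hbase : ∀ a : A0, τ (algebraMap A0 F0 a) = algebraMap A0 F0 (τ0 a)) (S : Set F0)
    (hS : ∀ s ∈ S, τ s = s) {z : F0} (hz : z ∈ fc_chart A0 S) : τ z ∈ fc_chart A0 S := by
  have hadj : ∀ w ∈ Algebra.adjoin A0 S, τ w ∈ Algebra.adjoin A0 S := by
    intro w hw
    induction hw using Algebra.adjoin_induction with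
    | mem s hs => rw [hS s hs]; exact Algebra.subset_adjoin hs
    | algebraMap a => rw [hbase]; exact Subalgebra.algebraMap_mem _ _
    | add a b _ _ ha hb => rw [map_add]; exact add_mem ha hb
    | mul a b _ _ ha hb => rw [map_mul]; exact mul_mem ha hb
  let φ : Algebra.adjoin A0 S →+* Algebra.adjoin A0 S :=
    { toFun := fun w => ⟨τ w, hadj w w.2⟩
      map_one' := Subtype.ext (map_one τ)
      map_mul' := fun a b => Subtype.ext (map_mul τ _ _)
      map_zero' := Subtype.ext (map_zero τ)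
      map_add' := fun a b => Subtype.ext (map_add τ _ _) }
  rw [fc_mem_chart] at hz ⊢
  exact IsIntegral.map_of_comp_eq φ (τ : F0 →+* F0) (by ext w; rfl) hz

end ChartFacts

section AbsCharts

variable {A0 : Type*} [CommRing A0] [IsDomain A0] [IsDiscreteValuationRing A0]
  {K : Type*} [Field K] [Algebra A0 K] [IsFractionRing A0 K]
  {F0 : Type v} [Field F0] [Algebra A0 F0] [Algebra K F0] [IsScalarTower A0 K F0]
  {π : A0} {σ : F0 ≃+* F0}

/-- **the local factorisations on an abstract chart.** -/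
theorem ssl_locAt_chart (hπ : Irreducible π) (B : Subalgebra A0 F0) [IsFractionRing B F0]
    [IsNoetherianRing B] [IsIntegrallyClosed B] (hσ : ssl_SigmaB π σ B)
    (hϖ0 : algebraMap A0 F0 π ≠ 0) (O : Subring F0) (PO : Set F0)
    (hOB : ∀ z ∈ O, ∃ s ∈ sfc_S B.toSubring (algebraMap A0 F0 π), s * z ∈ B)
    (hquot : ∀ G : F0, G ≠ 0 → σ G / G ∈ O) (hres : ∀ z ∈ O, σ z - z ∈ PO)
    (habs : ∀ a ∈ PO, ∀ b ∈ O, a * b ∈ PO)
    (hpts : ∀ 𝔫 : Ideal B, 𝔫.IsMaximal → algebraMap A0 B π ∈ 𝔫 →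
      ss_SmoothAt π B 𝔫 ∨ ssl_NodeAt π B 𝔫)
    (m : ℕ) {f : F0} (hf : f ≠ 0) (hord : ∀ P : Place K F0, (m : ℤ) ∣ P.ord f)
    (hrat : ∀ P : Place K F0, P.ord f ≠ 0 → ss_RatPlace P)
    (𝔫 : Ideal B) (h𝔫 : 𝔫.IsMaximal) (hπ𝔫 : algebraMap A0 B π ∈ 𝔫) :
    ∃ (r y : F0) (s : B), s ∉ 𝔫 ∧ (s : F0) * y ∈ B ∧
      σ (σ f) * f * ((σ f) ^ 2)⁻¹ = (1 + algebraMap A0 F0 π * y) * r ^ m ∧ r - 1 ∈ PO := by
  haveI := h𝔫.isPrime
  exact ssl_locAt_point (K := K) 𝔫 hπ hσ hπ𝔫 hϖ0 O PO hOB hquot hres habs (hpts 𝔫 h𝔫 hπ𝔫) m hf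
    hord hrat

end AbsCharts

section Node

variable {A0 : Type*} [CommRing A0] {F0 : Type v} [Field F0] [Algebra A0 F0]

/-- `ss_NodeAt` ⟹ `ssl_NodeAt`. -/
theorem ssl_nodeAt_of_nodeAt {π : A0} {σ : F0 ≃+* F0} {σ0 : A0 ≃+* A0} {B B12 : Subalgebra A0 F0}
    (hle : B ≤ B12) {P1 P2 : Ideal B12} {𝔫 : Ideal B} (h : ss_NodeAt π σ σ0 hle P1 P2 𝔫) :
    ssl_NodeAt π B 𝔫 := by
  obtain ⟨u, v, a, huv, -, -, hu, hv, hgen, ⟨s1, t1, hs1, ht1, h1⟩, ⟨s2, t2, hs2, ht2, h2⟩⟩ := h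
  refine ⟨u, v, a, ?_, huv, hu, hv, hgen⟩
  have hu0 : u ≠ 0 := by
    rintro rfl
    rw [mul_zero] at h1
    apply ht1
    have : t1 = 0 := Subtype.ext h1.symm
    rw [this]; exact P1.zero_mem
  have hv0 : v ≠ 0 := by
    rintro rfl
    rw [mul_zero] at h2
    apply ht2
    have : t2 = 0 := Subtype.ext h2.symm
    rw [this]; exact P2.zero_mem
  rintro rfl
  rw [map_zero] at huv
  exact (mul_ne_zero hu0 hv0) huv

end Node

section Model

variable {A0 : Type*} [CommRing A0] [IsDomain A0] [IsDiscreteValuationRing A0]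
  {K : Type*} [Field K] [Algebra A0 K] [IsFractionRing A0 K]
  {F0 : Type v} [Field F0] [Algebra A0 F0] [Algebra K F0] [IsScalarTower A0 K F0]
  {π : A0} {x : F0} {σ : F0 ≃+* F0} {σ0 : A0 ≃+* A0}
  {P1 P2 : Ideal (fc_chart A0 ({x, x⁻¹} : Set F0))}

/-- `σ ϖ = ϖ e`, `e ∈ A0ˣ`, in `F0`. -/
theorem ssl_model_pi (M : ss_Model π x σ σ0 P1 P2) :
    ∃ e : A0ˣ, σ (algebraMap A0 F0 π) = algebraMap A0 F0 π * algebraMap A0 F0 (e : A0) := by
  obtain ⟨e, he⟩ := ssa_sigma_pi M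
  exact ⟨e, by rw [M.σ_base, he, map_mul]⟩

/-- `σ⁻¹` is semilinear over `σ0⁻¹`. -/
theorem ssl_model_symm_base (M : ss_Model π x σ σ0 P1 P2) (a : A0) :
    σ.symm (algebraMap A0 F0 a) = algebraMap A0 F0 (σ0.symm a) := by
  rw [RingEquiv.symm_apply_eq, M.σ_base, RingEquiv.apply_symm_apply]

/-- the `σ`-package of the first chart. -/
theorem ssl_model_sigmaB1 (M : ss_Model π x σ σ0 P1 P2) :
    ssl_SigmaB π σ (fc_chart A0 ({x} : Set F0)) where
  triv := M.σ_triv1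
  symm_mem := fun b hb => ssl_chart_map_mem σ.symm σ0.symm (ssl_model_symm_base M) {x}
    (fun s hs => by
      rw [Set.mem_singleton_iff] at hs
      rw [hs, RingEquiv.symm_apply_eq, M.σ_x]) hb
  pi := ssl_model_pi M

/-- the `σ`-package of the second chart. -/
theorem ssl_model_sigmaB2 (M : ss_Model π x σ σ0 P1 P2) :
    ssl_SigmaB π σ (fc_chart A0 ({x⁻¹} : Set F0)) where
  triv := M.σ_triv2
  symm_mem := fun b hb => ssl_chart_map_mem σ.symm σ0.symm (ssl_model_symm_base M) {x⁻¹}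
    (fun s hs => by
      rw [Set.mem_singleton_iff] at hs
      rw [hs, RingEquiv.symm_apply_eq, map_inv₀, M.σ_x]) hb
  pi := ssl_model_pi M

/-- the semilocal Gauss ring of the overlap chart is contained in the one of the first chart. -/
theorem ssl_model_OB1 (M : ss_Model π x σ σ0 P1 P2) :
    ∀ z ∈ sfc_O (fc_chart A0 ({x, x⁻¹} : Set F0)).toSubring (algebraMap A0 F0 π),
      ∃ s ∈ sfc_S (fc_chart A0 ({x} : Set F0)).toSubring (algebraMap A0 F0 π),
        s * z ∈ fc_chart A0 ({x} : Set F0) := by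
  intro z hz
  have hx := ssa_x_ne_zero M
  have h := sfc_O_eq (R := (fc_chart A0 ({x} : Set F0)).toSubring)
    (R' := (fc_chart A0 ({x, x⁻¹} : Set F0)).toSubring) (fc_chart1_le x) M.hxS1 ssa_xinv_mem12
    (fun z hz => fc_clear1 hx hz)
  rw [← h] at hz
  exact hz

/-- the semilocal Gauss ring of the overlap chart is contained in the one of the second chart. -/
theorem ssl_model_OB2 (M : ss_Model π x σ σ0 P1 P2) :
    ∀ z ∈ sfc_O (fc_chart A0 ({x, x⁻¹} : Set F0)).toSubring (algebraMap A0 F0 π),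
      ∃ s ∈ sfc_S (fc_chart A0 ({x⁻¹} : Set F0)).toSubring (algebraMap A0 F0 π),
        s * z ∈ fc_chart A0 ({x⁻¹} : Set F0) := by
  intro z hz
  have hx := ssa_x_ne_zero M
  have hxx : x⁻¹⁻¹ ∈ (fc_chart A0 ({x, x⁻¹} : Set F0)).toSubring := by
    rw [inv_inv]; exact ssa_x_mem12
  have h := sfc_O_eq (R := (fc_chart A0 ({x⁻¹} : Set F0)).toSubring)
    (R' := (fc_chart A0 ({x, x⁻¹} : Set F0)).toSubring) (fc_chart2_le x) M.hxS2 hxx
    (fun z hz => fc_clear2 hx hz)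
  rw [← h] at hz
  exact hz

theorem ssl_model_quot (M : ss_Model π x σ σ0 P1 P2) (G : F0) (hG : G ≠ 0) :
    σ G / G ∈ sfc_O (fc_chart A0 ({x, x⁻¹} : Set F0)).toSubring (algebraMap A0 F0 π) := by
  rw [div_eq_mul_inv]; exact ssa_quot_mem M hG

theorem ssl_model_abs :
    ∀ a ∈ sfc_piO (fc_chart A0 ({x, x⁻¹} : Set F0)).toSubring (algebraMap A0 F0 π),
      ∀ b ∈ sfc_O (fc_chart A0 ({x, x⁻¹} : Set F0)).toSubring (algebraMap A0 F0 π),
        a * b ∈ sfc_piO (fc_chart A0 ({x, x⁻¹} : Set F0)).toSubring (algebraMap A0 F0 π) := by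
  intro a ha b hb
  rw [mul_comm]
  exact sfc_piO_mul_left hb ha

/-- **THE LOCAL FACTORISATIONS ON BOTH CHARTS OF AN `ss_Model`** (cell [L]). -/
theorem ssl_locAt (hπ : Irreducible π) (M : ss_Model π x σ σ0 P1 P2)
    (hAlg2 : Algebra.IsAlgebraic (Algebra.adjoin A0 ({x⁻¹} : Set F0)) F0)
    (hfin2 : Module.Finite (Algebra.adjoin A0 ({x⁻¹} : Set F0))
      (integralClosure (Algebra.adjoin A0 ({x⁻¹} : Set F0)) F0))
    (m : ℕ) {f : F0} (hf : f ≠ 0) (hord : ∀ P : Place K F0, (m : ℤ) ∣ P.ord f)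
    (hrat : ∀ P : Place K F0, P.ord f ≠ 0 → ss_RatPlace P) :
    ss_LocAt π x m (σ (σ f) * f * ((σ f) ^ 2)⁻¹) (fc_chart A0 ({x} : Set F0)) ∧
      ss_LocAt π x m (σ (σ f) * f * ((σ f) ^ 2)⁻¹) (fc_chart A0 ({x⁻¹} : Set F0)) := by
  have hϖ0 := ssa_pi_ne_zero M
  constructor
  · haveI := M.isAlg
    haveI := ssa_noeth1 M
    haveI : IsIntegrallyClosed (fc_chart A0 ({x} : Set F0)) := ssl_chart_isIntegrallyClosed {x}
    intro 𝔫 h𝔫 hπ𝔫
    exact ssl_locAt_chart (K := K) hπ (fc_chart A0 ({x} : Set F0)) (ssl_model_sigmaB1 M) hϖ0 _ _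
      (ssl_model_OB1 M) (ssl_model_quot M) (fun z hz => ssa_sigma_O M hz) ssl_model_abs
      (fun 𝔫 h𝔫 hπ𝔫 => (M.pts1 𝔫 h𝔫 hπ𝔫).imp id (ssl_nodeAt_of_nodeAt (fc_chart1_le x)))
      m hf hord hrat 𝔫 h𝔫 hπ𝔫
  · haveI := hAlg2
    haveI : IsNoetherianRing (fc_chart A0 ({x⁻¹} : Set F0)) := by
      have := fc_chart_isNoetherianRing (A0 := A0) (F0 := F0) {x⁻¹}
        (by rw [Finset.coe_singleton]; exact hfin2)
      rwa [Finset.coe_singleton] at this
    haveI : IsIntegrallyClosed (fc_chart A0 ({x⁻¹} : Set F0)) :=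
      ssl_chart_isIntegrallyClosed {x⁻¹}
    intro 𝔫 h𝔫 hπ𝔫
    exact ssl_locAt_chart (K := K) hπ (fc_chart A0 ({x⁻¹} : Set F0)) (ssl_model_sigmaB2 M) hϖ0 _ _
      (ssl_model_OB2 M) (ssl_model_quot M) (fun z hz => ssa_sigma_O M hz) ssl_model_abs
      (fun 𝔫 h𝔫 hπ𝔫 => (M.pts2 𝔫 h𝔫 hπ𝔫).imp id (ssl_nodeAt_of_nodeAt (fc_chart2_le x)))
      m hf hord hrat 𝔫 h𝔫 hπ𝔫

/-- **the same in the function-field situation.** -/
theorem ssl_locAt_funField [CharZero K] (hπ : Irreducible π) (hx : Transcendental K x)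
    [FiniteDimensional K⟮x⟯ F0] (M : ss_Model π x σ σ0 P1 P2)
    (m : ℕ) {f : F0} (hf : f ≠ 0) (hord : ∀ P : Place K F0, (m : ℤ) ∣ P.ord f)
    (hrat : ∀ P : Place K F0, P.ord f ≠ 0 → ss_RatPlace P) :
    ss_LocAt π x m (σ (σ f) * f * ((σ f) ^ 2)⁻¹) (fc_chart A0 ({x} : Set F0)) ∧
      ss_LocAt π x m (σ (σ f) * f * ((σ f) ^ 2)⁻¹) (fc_chart A0 ({x⁻¹} : Set F0)) := by
  have hxi : Transcendental K x⁻¹ := fun h => hx (IsAlgebraic.inv_iff.mp h)
  haveI hfd2 : FiniteDimensional K⟮x⁻¹⟯ F0 := by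
    rw [rt_adjoin_inv]; infer_instance
  exact ssl_locAt (K := K) hπ M (fc_ff_isAlgebraic (L := K) x⁻¹) (fc_ff_finite (L := K) hxi) m hf
    hord hrat

end Model

end Fermat.Agent.SS
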