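/-
Project SS (S34), cell [L] (helper10): `ss_coreAt_of_model` (helper6, `SS/CoreInst.lean`) with the
local factorisations of cell [L] (`ssl_locAt_funField`) plugged in: an `ss_Model` of a cover field
`E ⊆ L((X))` over a discrete valuation ring `O` of `L` (characteristic zero, `x` transcendental,
`E / L(x)` finite) gives the core `ss_CoreAt σ E m`.
-/
import Mathlib
import Fermat.Agent.SS.CoreInst
import Fermat.Agent.SS.Local.Main

set_option autoImplicit false
set_option linter.unusedVariables false

namespace Fermat.Agent.SS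

open Fermat.Agent.JT3 AlgebraicCurve ModularCurve IntermediateField

variable {L : Type*} [Field L] (O : ValuationSubring L) (σ : L ≃+* L)
  (E : IntermediateField L (LaurentSeries L))

/-- **From the model to the core, with the local factorisations of cell [L] plugged in.** -/
theorem ssl_coreAt_of_model [IsDiscreteValuationRing O] [CharZero L]
    (hE : ∀ z ∈ E, coeffMap (σ : L →+* L) z ∈ E)
    (hE' : ∀ z ∈ E, coeffMap (σ.symm : L →+* L) z ∈ E)
    (h : ∀ z ∈ O, σ z ∈ O) (h' : ∀ z ∈ O, σ.symm z ∈ O)
    {π : O} (hπ : Irreducible π) {x : E} (hx : Transcendental L x) [FiniteDimensional L⟮x⟯ E]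
    {P1 P2 : Ideal (fc_chart O ({x, x⁻¹} : Set E))}
    (M : ss_Model π x (ss_sigmaE σ E hE hE') (ss_sigmaO O σ h h') P1 P2)
    (m : ℕ) (hm : IsUnit ((m : ℕ) : O)) : ss_CoreAt σ E m :=
  ss_coreAt_of_model O σ E hE hE' h h' M m hm fun f hf hord hrat =>
    ssl_locAt_funField (K := L) hπ hx M m hf hord hrat

end Fermat.Agent.SS
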